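import Fermat.Prelude.Def_GaloisRep_Flat
import Mathlib.FieldTheory.Galois.Infinite
import Mathlib.FieldTheory.IsAlgClosed.AlgebraicClosure
import Mathlib.LinearAlgebra.TensorProduct.Basis
import Mathlib.RingTheory.PrincipalIdealDomain
import Mathlib.RingTheory.Localization.FractionRing
import Mathlib.LinearAlgebra.FreeModule.PID
import Mathlib.RingTheory.TensorProduct.Basic

/-!
Equivariant `ℚ̄`-valued functions: independence over `ℤ_(p)` implies independence over `ℚ̄`;
products of functions in separated variables.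
-/

set_option autoImplicit false

noncomputable section

namespace FermatAgent.GalRep.Flat

open scoped TensorProduct

local notation "Qb" => AlgebraicClosure ℚ
local notation "GQ" => AlgebraicClosure ℚ ≃ₐ[ℚ] AlgebraicClosure ℚ
local notation "Rp" => GaloisRep.ratLocalizedAt

variable {p : ℕ}

theorem mem_ratLocalized {q : ℚ} : q ∈ GaloisRep.ratLocalizedAt p ↔ q.den.Coprime p := Iff.rfl

theorem intCast_mem_ratLocalized (z : ℤ) : (z : ℚ) ∈ GaloisRep.ratLocalizedAt p := by
  rw [mem_ratLocalized, Rat.den_intCast]; exact Nat.coprime_one_left p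

instance : IsPrincipalIdealRing (GaloisRep.ratLocalizedAt p) where
  principal I := by
    obtain ⟨g, hg⟩ := Submodule.IsPrincipal.principal (I.comap (Int.castRingHom (Rp p)))
    refine ⟨⟨(g : Rp p), le_antisymm (fun x hx => ?_) ?_⟩⟩
    · have hden : ((x : ℚ).den : ℚ)⁻¹ ∈ GaloisRep.ratLocalizedAt p := by
        rw [mem_ratLocalized, Rat.inv_natCast_den]
        rw [if_neg (x : ℚ).den_ne_zero]
        exact x.2
      have hmul : ((x : ℚ).num : Rp p) = x * ((x : ℚ).den : Rp p) := by
        apply Subtype.ext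
        push_cast
        exact (Rat.mul_den_eq_num _).symm
      have hnum : (x : ℚ).num ∈ I.comap (Int.castRingHom (Rp p)) := by
        rw [Ideal.mem_comap, eq_intCast, hmul]
        exact Ideal.mul_mem_right _ _ hx
      rw [hg, Submodule.mem_span_singleton] at hnum
      obtain ⟨c, hc⟩ := hnum
      rw [Submodule.mem_span_singleton]
      refine ⟨(c : Rp p) * ⟨_, hden⟩, Subtype.ext ?_⟩
      simp only [smul_eq_mul]
      push_cast
      conv_rhs => rw [← Rat.num_div_den (x : ℚ), ← hc]
      simp only [smul_eq_mul, Int.cast_mul]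
      ring
    · rw [Submodule.span_le, Set.singleton_subset_iff]
      have h1 : g ∈ I.comap (Int.castRingHom (Rp p)) := hg ▸ Submodule.mem_span_singleton_self g
      exact h1

instance : IsFractionRing (GaloisRep.ratLocalizedAt p) ℚ where
  map_units y := isUnit_iff_ne_zero.mpr fun h => nonZeroDivisors.coe_ne_zero y (Subtype.ext h)
  surj z := by
    refine ⟨(⟨(z.num : ℚ), intCast_mem_ratLocalized z.num⟩,
      ⟨⟨((z.den : ℤ) : ℚ), intCast_mem_ratLocalized _⟩, ?_⟩), ?_⟩
    · rw [mem_nonZeroDivisors_iff_ne_zero]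
      exact fun h => z.den_ne_zero (by simpa using congrArg Subtype.val h)
    · show z * ((z.den : ℤ) : ℚ) = (z.num : ℚ)
      rw [Int.cast_natCast, Rat.mul_den_eq_num]
  exists_of_eq h := ⟨1, by rw [Subtype.ext h]⟩

/-- A function on a Galois set is equivariant. -/
def IsEquivariant {X : Type*} (act : GQ → X → X) (f : X → Qb) : Prop :=
  ∀ σ x, f (act σ x) = σ (f x)

variable {X : Type*} {act : GQ → X → X}

theorem mem_range_rat_of_fixed {c : Qb} (h : ∀ σ : GQ, σ c = c) : ∃ q : ℚ, (q : Qb) = c := by
  have : IsAlgClosure ℚ Qb := AlgebraicClosure.instIsAlgClosure ℚ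
  have : IsGalois ℚ Qb := IsAlgClosure.isGalois ℚ Qb
  obtain ⟨q, hq⟩ := (InfiniteGalois.mem_range_algebraMap_iff_fixed (k := ℚ) c).mpr h
  exact ⟨q, by rw [← hq, eq_ratCast]⟩

theorem smul_qbar_eq (r : Rp p) (z : Qb) : r • z = ((r : ℚ) : Qb) * z := by
  rw [Algebra.smul_def]
  congr 1

/-- Independent equivariant functions stay independent over `ℚ̄`. -/
theorem linearIndependent_qbar (hsurj : ∀ σ, Function.Surjective (act σ)) {ι : Type*}
    {v : ι → X → Qb} (heq : ∀ i, IsEquivariant act (v i))
    (hli : LinearIndependent (Rp p) v) : LinearIndependent Qb v := by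
  classical
  rw [linearIndependent_iff']
  intro s
  induction s using Finset.strongInduction with
  | H s ih =>
    intro c hc
    by_contra! hne
    obtain ⟨j, hj, hcj⟩ := hne
    let d := fun i => c i / c j
    have hd : ∑ i ∈ s, d i • v i = 0 := by
      have : ∑ i ∈ s, d i • v i = (c j)⁻¹ • ∑ i ∈ s, c i • v i := by
        rw [Finset.smul_sum]
        exact Finset.sum_congr rfl fun i _ => by rw [smul_smul, ← div_eq_inv_mul]
      rw [this, hc, smul_zero]
    -- all coefficients are rational
    have hrat : ∀ i ∈ s, ∃ q : ℚ, (q : Qb) = d i := fun i hi => by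
      refine mem_range_rat_of_fixed fun σ => ?_
      rcases eq_or_ne i j with rfl | hij
      · simp [d, div_self hcj]
      refine sub_eq_zero.mp (ih (s.erase j) (Finset.erase_ssubset hj) (fun k => σ (d k) - d k) ?_ i
        (Finset.mem_erase.mpr ⟨hij, hi⟩))
      have hσ : ∑ k ∈ s, σ (d k) • v k = 0 := by
        funext x
        obtain ⟨y, rfl⟩ := hsurj σ x
        have h := congrArg σ (congrFun hd y)
        simp only [Finset.sum_apply, Pi.smul_apply, smul_eq_mul, map_sum, map_mul, Pi.zero_apply,
          map_zero] at h ⊢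
        rw [← h]
        exact Finset.sum_congr rfl fun k _ => by rw [heq k σ y]
      have h0 : ∑ k ∈ s, (σ (d k) - d k) • v k = 0 := by
        simp only [sub_smul, Finset.sum_sub_distrib, hσ, hd, sub_zero]
      rw [← Finset.sum_erase _ (a := j)] at h0
      · exact h0
      · simp [d, div_self hcj]
    choose! q hq using hrat
    -- clear denominators
    let D : ℚ := ∏ i ∈ s, ((q i).den : ℚ)
    have hint : ∀ i ∈ s, ∃ z : ℤ, (z : ℚ) = D * q i := fun i hi => by
      refine ⟨(∏ k ∈ s.erase i, ((q k).den : ℤ)) * (q i).num, ?_⟩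
      simp only [D]
      rw [← Finset.prod_erase_mul s _ hi, Int.cast_mul, Int.cast_prod]
      simp only [Int.cast_natCast]
      rw [mul_assoc, Rat.den_mul_eq_num]
    choose! z hz using hint
    have hrel : ∑ i ∈ s, ((z i : ℤ) : Rp p) • v i = 0 := by
      have : ∑ i ∈ s, ((z i : ℤ) : Rp p) • v i = (D : Qb) • ∑ i ∈ s, d i • v i := by
        rw [Finset.smul_sum]
        refine Finset.sum_congr rfl fun i hi => funext fun x => ?_
        simp only [Pi.smul_apply, smul_eq_mul]
        rw [smul_qbar_eq, ← hq i hi, ← mul_assoc, ← Rat.cast_mul, ← hz i hi, Subring.coe_intCast]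
      rw [this, hd, smul_zero]
    have hzj := (linearIndependent_iff'.mp hli) s _ hrel j hj
    have hq1 : q j = 1 := by
      have := hq j hj
      rw [show d j = 1 from div_self hcj, ← Rat.cast_one] at this
      exact Rat.cast_injective this
    have h2 := hz j hj
    rw [hq1, mul_one] at h2
    have h3 : ((z j : ℤ) : ℚ) = 0 := by
      simpa using congrArg Subtype.val hzj
    rw [h3] at h2
    exact (Finset.prod_ne_zero_iff.mpr fun i _ => Nat.cast_ne_zero.mpr (q i).den_ne_zero) h2.symm

variable {Y : Type*} {P : Type*} [CommRing P] [Algebra (Rp p) P] {P' : Type*} [CommRing P']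
  [Algebra (Rp p) P']

/-- Precomposition as an algebra homomorphism. -/
def precomp (g : Y → X) : (X → Qb) →ₐ[Rp p] (Y → Qb) :=
  AlgHom.pi fun y => Pi.evalAlgHom (Rp p) (fun _ : X => Qb) (g y)

@[simp] theorem precomp_apply (g : Y → X) (f : X → Qb) (y : Y) :
    precomp (p := p) g f y = f (g y) := rfl

/-- `f ⊗ g ↦ ((x, y) ↦ f x * g y)`. -/
def prodTensor (φ : P →ₐ[Rp p] (X → Qb)) (ψ : P' →ₐ[Rp p] (Y → Qb)) :
    P ⊗[Rp p] P' →ₐ[Rp p] (X × Y → Qb) :=
  Algebra.TensorProduct.lift ((precomp Prod.fst).comp φ) ((precomp Prod.snd).comp ψ)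
    fun _ _ => Commute.all _ _

theorem prodTensor_tmul (φ : P →ₐ[Rp p] (X → Qb)) (ψ : P' →ₐ[Rp p] (Y → Qb)) (a : P) (b : P')
    (z : X × Y) : prodTensor φ ψ (a ⊗ₜ b) z = φ a z.1 * ψ b z.2 := rfl

theorem linearIndependent_prod {ι κ : Type*} {v : ι → X → Qb} {w : κ → Y → Qb}
    (hv : LinearIndependent Qb v) (hw : LinearIndependent Qb w) :
    LinearIndependent Qb fun (i : ι × κ) (z : X × Y) => v i.1 z.1 * w i.2 z.2 := by
  classical
  rw [linearIndependent_iff']
  intro s c hc i hi
  let C : ι → κ → Qb := fun a b => if (a, b) ∈ s then c (a, b) else 0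
  let sa := s.image Prod.fst
  let sb := s.image Prod.snd
  have hsum : ∀ x y, ∑ a ∈ sa, (∑ b ∈ sb, C a b * w b y) * v a x = 0 := fun x y => by
    have h := congrFun hc (x, y)
    simp only [Finset.sum_apply, Pi.smul_apply, smul_eq_mul, Pi.zero_apply] at h
    have hsub : s ⊆ sa ×ˢ sb := fun k hk =>
      Finset.mem_product.mpr ⟨Finset.mem_image_of_mem _ hk, Finset.mem_image_of_mem _ hk⟩
    calc ∑ a ∈ sa, (∑ b ∈ sb, C a b * w b y) * v a x
        = ∑ k ∈ sa ×ˢ sb, C k.1 k.2 * (v k.1 x * w k.2 y) := by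
          rw [Finset.sum_product]
          exact Finset.sum_congr rfl fun a _ => by
            rw [Finset.sum_mul]; exact Finset.sum_congr rfl fun b _ => by ring
      _ = ∑ k ∈ s, c k * (v k.1 x * w k.2 y) := by
          rw [← Finset.sum_subset hsub (fun k _ hk => by simp [C, hk])]
          exact Finset.sum_congr rfl fun k hk => by simp [C, hk]
      _ = 0 := h
  have h1 : ∀ y, ∀ a ∈ sa, ∑ b ∈ sb, C a b * w b y = 0 := fun y =>
    linearIndependent_iff'.mp hv sa (fun a => ∑ b ∈ sb, C a b * w b y) (funext fun x => by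
      simpa [Finset.sum_apply] using hsum x y)
  have h2 := linearIndependent_iff'.mp hw sb (fun b => C i.1 b) (funext fun y => by
    simpa [Finset.sum_apply] using h1 y i.1 (Finset.mem_image_of_mem _ hi)) i.2
    (Finset.mem_image_of_mem _ hi)
  simpa [C, hi] using h2

theorem prodTensor_injective (φ : P →ₐ[Rp p] (X → Qb)) (ψ : P' →ₐ[Rp p] (Y → Qb))
    {ι κ : Type*} (b : Module.Basis ι (Rp p) P) (c : Module.Basis κ (Rp p) P')
    (hb : LinearIndependent Qb (φ ∘ b)) (hc : LinearIndependent Qb (ψ ∘ c)) :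
    Function.Injective (prodTensor φ ψ) := by
  have h := linearIndependent_prod hb hc
  refine (injective_iff_map_eq_zero _).mpr fun t ht => ?_
  have hsum := (b.tensorProduct c).linearCombination_repr t
  set r := (b.tensorProduct c).repr t with hr
  rw [← hsum, Finsupp.linearCombination_apply, Finsupp.sum, map_sum] at ht
  have hrel : ∑ i ∈ r.support, ((r i : ℚ) : Qb) • (fun z : X × Y =>
      (φ ∘ b) i.1 z.1 * (ψ ∘ c) i.2 z.2) = 0 := by
    rw [← ht]
    refine Finset.sum_congr rfl fun i _ => funext fun z => ?_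
    rw [map_smul, Module.Basis.tensorProduct_apply', Pi.smul_apply, Pi.smul_apply, smul_qbar_eq,
      prodTensor_tmul]
    rfl
  have hzero : r = 0 := Finsupp.ext fun i => by
    by_contra hi
    exact hi (Subtype.ext (Rat.cast_injective (α := Qb) (((linearIndependent_iff'.mp h) r.support _
      hrel i (Finsupp.mem_support_iff.mpr hi)).trans Rat.cast_zero.symm)))
  rw [← hsum, hzero, map_zero]

end FermatAgent.GalRep.Flat
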