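import Fermat.Agent.GalRep.Flat.Indep
import Mathlib.RingTheory.HopfAlgebra.Basic
import Mathlib.RingTheory.Bialgebra.Convolution
import Mathlib.RingTheory.IntegralClosure.IntegrallyClosed

/-!
Finite flat group schemes over `ℤ_(p)` as algebras of equivariant functions on their `ℚ̄`-points:
a `FunctionModel` of a finite Galois module gives the finite flat cocommutative Hopf algebra.
-/

set_option autoImplicit false

noncomputable section

namespace FermatAgent.GalRep.Flat

open scoped TensorProduct

local notation "Qb" => AlgebraicClosure ℚ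
local notation "GQ" => AlgebraicClosure ℚ ≃ₐ[ℚ] AlgebraicClosure ℚ
local notation "Rp" => GaloisRep.ratLocalizedAt

/-- Addition as a map on pairs. -/
abbrev addMap {M : Type} [AddCommGroup M] : M × M → M := fun z => z.1 + z.2

/-- A model over `ℤ_(p)` of a Galois module, as an algebra of functions on it. -/
structure FunctionModel (p : ℕ) (M : Type) [AddCommGroup M] (act : GQ → M → M) where
  A : Subalgebra (GaloisRep.ratLocalizedAt p) (M → Qb)
  fg : A.toSubmodule.FG
  equivariant : ∀ f ∈ A, IsEquivariant act f
  separates : ∀ x y : M, (∀ f ∈ A, f x = f y) → x = y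
  add_mem : ∀ f ∈ A, precomp (p := p) addMap f ∈ (prodTensor A.val A.val).range
  neg_mem : ∀ f ∈ A, precomp (p := p) (fun x : M => -x) f ∈ A

namespace FunctionModel

variable {p : ℕ} {M : Type} [AddCommGroup M] {act : GQ → M → M} (G : FunctionModel p M act)

instance : Module.Finite (Rp p) G.A := Module.Finite.iff_fg.mpr G.fg

instance : Module.Free (Rp p) G.A := by
  have : Module.IsTorsionFree (Rp p) G.A := .of_smul_eq_zero fun r f h => by
    refine or_iff_not_imp_left.mpr fun hr => Subtype.ext (funext fun x => ?_)
    have h1 : r • (f : M → Qb) x = 0 := congrFun (congrArg Subtype.val h) x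
    rw [smul_qbar_eq, mul_eq_zero, Rat.cast_eq_zero] at h1
    exact h1.resolve_left fun h2 => hr (Subtype.ext h2)
  exact Module.free_of_finite_type_torsion_free'

include G in
theorem act_injective (σ : GQ) : Function.Injective (act σ) := fun x y h =>
  G.separates x y fun f hf => σ.injective (by rw [← G.equivariant f hf, ← G.equivariant f hf, h])

include G in
theorem act_surjective [Finite M] (σ : GQ) : Function.Surjective (act σ) :=
  Finite.surjective_of_injective (G.act_injective σ)

include G in
theorem act_add (σ : GQ) (x y : M) : act σ (x + y) = act σ x + act σ y := by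
  refine G.separates _ _ fun f hf => ?_
  obtain ⟨t, ht⟩ := G.add_mem f hf
  have hev : ∀ a b, prodTensor G.A.val G.A.val t (a, b) = f (a + b) := fun a b => congrFun ht (a, b)
  rw [G.equivariant f hf, ← hev, ← hev]
  clear ht hev
  induction t using TensorProduct.induction_on with
  | zero => simp
  | tmul a b =>
    simp only [prodTensor_tmul, Subalgebra.coe_val, map_mul]
    rw [G.equivariant a a.2, G.equivariant b b.2]
  | add a b ha hb => simp only [map_add, Pi.add_apply, ha, hb]

include G in
theorem act_zero (σ : GQ) : act σ 0 = 0 := by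
  have h := G.act_add σ 0 0
  rw [add_zero] at h
  exact right_eq_add.mp h

/-- A `ℤ_(p)`-basis of the model. -/
def basis : Module.Basis (Module.Free.ChooseBasisIndex (Rp p) G.A) (Rp p) G.A :=
  Module.Free.chooseBasis _ _

variable [Finite M]

theorem linearIndependent_basis : LinearIndependent Qb (G.A.val ∘ G.basis) := by
  refine linearIndependent_qbar (p := p) G.act_surjective (fun i => G.equivariant _ (G.basis i).2) ?_
  exact G.basis.linearIndependent.map' G.A.val.toLinearMap
    (LinearMap.ker_eq_bot.mpr Subtype.val_injective)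

theorem prodTensor_self_injective : Function.Injective (prodTensor G.A.val G.A.val) :=
  prodTensor_injective _ _ G.basis G.basis G.linearIndependent_basis G.linearIndependent_basis

/-- The test map `A ⊗ (A ⊗ A) → functions on triples`. -/
def prodTensor₃ : G.A ⊗[Rp p] (G.A ⊗[Rp p] G.A) →ₐ[Rp p] (M × (M × M) → Qb) :=
  prodTensor G.A.val (prodTensor G.A.val G.A.val)

theorem prodTensor₃_injective : Function.Injective G.prodTensor₃ := by
  refine prodTensor_injective _ _ G.basis (G.basis.tensorProduct G.basis)
    G.linearIndependent_basis ?_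
  convert linearIndependent_prod G.linearIndependent_basis G.linearIndependent_basis using 1
  funext i z
  simp [Module.Basis.tensorProduct_apply', prodTensor_tmul]

/-- Comultiplication. -/
def comul : G.A →ₐ[Rp p] G.A ⊗[Rp p] G.A :=
  (AlgEquiv.ofInjective _ G.prodTensor_self_injective).symm.toAlgHom.comp
    (((precomp addMap).comp G.A.val).codRestrict _ fun f => G.add_mem f f.2)

theorem prodTensor_comul (f : G.A) (z : M × M) :
    prodTensor G.A.val G.A.val (G.comul f) z = (f : M → Qb) (z.1 + z.2) := by
  have h : prodTensor G.A.val G.A.val (G.comul f) = precomp (p := p) addMap (f : M → Qb) := by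
    have h1 := (AlgEquiv.ofInjective _ G.prodTensor_self_injective).apply_symm_apply
      ⟨precomp (p := p) addMap (f : M → Qb), G.add_mem f f.2⟩
    exact congrArg Subtype.val h1
  rw [h, precomp_apply]

/-- The antipode. -/
def antipode : G.A →ₐ[Rp p] G.A :=
  ((precomp fun x : M => -x).comp G.A.val).codRestrict _ fun f => G.neg_mem f f.2

omit [Finite M] in
theorem isIntegral_apply {f : M → Qb} (hf : f ∈ G.A) (x : M) : IsIntegral (Rp p) (f x) := by
  have h : IsIntegral (Rp p) (⟨f, hf⟩ : G.A) := IsIntegral.of_finite _ _
  exact (h.map G.A.val).map (Pi.evalAlgHom (Rp p) (fun _ : M => Qb) x)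

omit [Finite M] in
theorem value_zero_mem (f : G.A) : ∃ r : Rp p, algebraMap (Rp p) Qb r = (f : M → Qb) 0 := by
  obtain ⟨q, hq⟩ := mem_range_rat_of_fixed (c := (f : M → Qb) 0) fun σ => by
    rw [← G.equivariant f f.2, G.act_zero]
  have hint : IsIntegral (Rp p) q := by
    have h := G.isIntegral_apply f.2 0
    rw [← hq, ← eq_ratCast (algebraMap ℚ Qb)] at h
    exact (isIntegral_algebraMap_iff (algebraMap ℚ Qb).injective).mp h
  obtain ⟨r, hr⟩ := IsIntegrallyClosed.isIntegral_iff.mp hint
  refine ⟨r, ?_⟩
  rw [← hq, IsScalarTower.algebraMap_apply (Rp p) ℚ Qb, hr, eq_ratCast]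

/-- Evaluation at zero. -/
def counit : G.A →ₐ[Rp p] Rp p :=
  have hinj : Function.Injective (Algebra.ofId (Rp p) Qb) := fun r r' h =>
    Subtype.ext ((algebraMap ℚ Qb).injective h)
  (AlgEquiv.ofInjective _ hinj).symm.toAlgHom.comp
    (((Pi.evalAlgHom (Rp p) (fun _ : M => Qb) 0).comp G.A.val).codRestrict _ fun f => by
      obtain ⟨r, hr⟩ := G.value_zero_mem f
      exact ⟨r, hr⟩)

omit [Finite M] in
theorem algebraMap_counit (f : G.A) :
    algebraMap (Rp p) Qb (G.counit f) = (f : M → Qb) 0 := by
  have hinj : Function.Injective (Algebra.ofId (Rp p) Qb) := fun r r' h =>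
    Subtype.ext ((algebraMap ℚ Qb).injective h)
  have h1 := (AlgEquiv.ofInjective _ hinj).apply_symm_apply
    ⟨(f : M → Qb) 0, by obtain ⟨r, hr⟩ := G.value_zero_mem f; exact ⟨r, hr⟩⟩
  exact congrArg Subtype.val h1

omit [Finite M] in
theorem prodTensor_rTensor (t : G.A ⊗[Rp p] G.A) (x : M) :
    ((Algebra.TensorProduct.lid (Rp p) G.A)
      (Algebra.TensorProduct.map G.counit (AlgHom.id (Rp p) G.A) t) : G.A).1 x =
    prodTensor G.A.val G.A.val t (0, x) := by
  induction t using TensorProduct.induction_on with
  | zero => simp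
  | tmul a b =>
    simp only [Algebra.TensorProduct.map_tmul, Algebra.TensorProduct.lid_tmul, AlgHom.id_apply,
      prodTensor_tmul, Subalgebra.coe_val, Subalgebra.coe_smul, Pi.smul_apply]
    rw [Algebra.smul_def, G.algebraMap_counit]
  | add a b ha hb => simp only [map_add, Subalgebra.coe_add, Pi.add_apply, ha, hb]

omit [Finite M] in
theorem prodTensor_lTensor (t : G.A ⊗[Rp p] G.A) (x : M) :
    ((Algebra.TensorProduct.rid (Rp p) (Rp p) G.A)
      (Algebra.TensorProduct.map (AlgHom.id (Rp p) G.A) G.counit t) : G.A).1 x =
    prodTensor G.A.val G.A.val t (x, 0) := by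
  induction t using TensorProduct.induction_on with
  | zero => simp
  | tmul a b =>
    simp only [Algebra.TensorProduct.map_tmul, Algebra.TensorProduct.rid_tmul, AlgHom.id_apply,
      prodTensor_tmul, Subalgebra.coe_val, Subalgebra.coe_smul, Pi.smul_apply]
    rw [Algebra.smul_def, G.algebraMap_counit, mul_comm]
  | add a b ha hb => simp only [map_add, Subalgebra.coe_add, Pi.add_apply, ha, hb]

theorem coassoc :
    (Algebra.TensorProduct.assoc (Rp p) (Rp p) (Rp p) G.A G.A G.A).toAlgHom.comp
      ((Algebra.TensorProduct.map G.comul (AlgHom.id (Rp p) G.A)).comp G.comul) =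
    (Algebra.TensorProduct.map (AlgHom.id (Rp p) G.A) G.comul).comp G.comul := by
  refine AlgHom.ext fun f => G.prodTensor₃_injective (funext fun z => ?_)
  obtain ⟨x, y, w⟩ := z
  simp only [AlgHom.comp_apply]
  have h1 : ∀ t : G.A ⊗[Rp p] G.A,
      G.prodTensor₃ ((Algebra.TensorProduct.assoc (Rp p) (Rp p) (Rp p) G.A G.A G.A).toAlgHom
        (Algebra.TensorProduct.map G.comul (AlgHom.id (Rp p) G.A) t)) (x, y, w) =
      prodTensor G.A.val G.A.val t (x + y, w) := by
    intro t
    induction t using TensorProduct.induction_on with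
    | zero => simp
    | tmul a b =>
      have h2 : ∀ u : G.A ⊗[Rp p] G.A,
          G.prodTensor₃ ((Algebra.TensorProduct.assoc (Rp p) (Rp p) (Rp p) G.A G.A G.A).toAlgHom
            (u ⊗ₜ b)) (x, y, w) =
          prodTensor G.A.val G.A.val u (x, y) * (b : M → Qb) w := by
        intro u
        induction u using TensorProduct.induction_on with
        | zero => simp
        | tmul c d =>
          simp [prodTensor₃, prodTensor_tmul, mul_assoc]
        | add c d hc hd =>
          simp only [TensorProduct.add_tmul, map_add, Pi.add_apply, hc, hd, add_mul]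
      rw [Algebra.TensorProduct.map_tmul, AlgHom.id_apply, h2, G.prodTensor_comul, prodTensor_tmul]
      rfl
    | add a b ha hb => simp only [map_add, Pi.add_apply, ha, hb]
  have h3 : ∀ t : G.A ⊗[Rp p] G.A,
      G.prodTensor₃ (Algebra.TensorProduct.map (AlgHom.id (Rp p) G.A) G.comul t) (x, y, w) =
      prodTensor G.A.val G.A.val t (x, y + w) := by
    intro t
    induction t using TensorProduct.induction_on with
    | zero => simp
    | tmul a b =>
      rw [Algebra.TensorProduct.map_tmul, AlgHom.id_apply, prodTensor₃, prodTensor_tmul,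
        G.prodTensor_comul, prodTensor_tmul]
      rfl
    | add a b ha hb => simp only [map_add, Pi.add_apply, ha, hb]
  rw [h1, h3, G.prodTensor_comul, G.prodTensor_comul, add_assoc]

/-- The Hopf algebra structure. -/
@[implicit_reducible]
def hopfAlgebra : HopfAlgebra (Rp p) G.A :=
  letI : Bialgebra (Rp p) G.A := Bialgebra.ofAlgHom G.comul G.counit G.coassoc
    (AlgHom.ext fun f => (Algebra.TensorProduct.lid (Rp p) G.A).injective (by
      refine Subtype.ext (funext fun x => ?_)
      rw [AlgHom.comp_apply, G.prodTensor_rTensor, G.prodTensor_comul, zero_add]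
      simp))
    (AlgHom.ext fun f => (Algebra.TensorProduct.rid (Rp p) (Rp p) G.A).injective (by
      refine Subtype.ext (funext fun x => ?_)
      rw [AlgHom.comp_apply, G.prodTensor_lTensor, G.prodTensor_comul, add_zero]
      simp))
  HopfAlgebra.ofAlgHom G.antipode
    (AlgHom.ext fun f => Subtype.ext (funext fun x => by
      have h : ∀ t : G.A ⊗[Rp p] G.A,
          (Algebra.TensorProduct.lift G.antipode (AlgHom.id (Rp p) G.A) (fun _ _ => Commute.all _ _) t : G.A).1 x =
            prodTensor G.A.val G.A.val t (-x, x) := by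
        intro t
        induction t using TensorProduct.induction_on with
        | zero => simp
        | tmul a b =>
          rw [prodTensor_tmul]
          exact congrFun (congrArg Subtype.val (Algebra.TensorProduct.lift_tmul _ _ _ a b)) x
        | add a b ha hb => simp only [map_add, Subalgebra.coe_add, Pi.add_apply, ha, hb]
      refine (h (G.comul f)).trans ?_
      rw [G.prodTensor_comul, neg_add_cancel]
      exact (G.algebraMap_counit f).symm))
    (AlgHom.ext fun f => Subtype.ext (funext fun x => by
      have h : ∀ t : G.A ⊗[Rp p] G.A,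
          (Algebra.TensorProduct.lift (AlgHom.id (Rp p) G.A) G.antipode (fun _ _ => Commute.all _ _) t : G.A).1 x =
            prodTensor G.A.val G.A.val t (x, -x) := by
        intro t
        induction t using TensorProduct.induction_on with
        | zero => simp
        | tmul a b =>
          rw [prodTensor_tmul]
          exact congrFun (congrArg Subtype.val (Algebra.TensorProduct.lift_tmul _ _ _ a b)) x
        | add a b ha hb => simp only [map_add, Subalgebra.coe_add, Pi.add_apply, ha, hb]
      refine (h (G.comul f)).trans ?_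
      rw [G.prodTensor_comul, add_neg_cancel]
      exact (G.algebraMap_counit f).symm))

/-- The `ℚ̄`-valued span of a model is everything. -/
theorem span_eq_top : Submodule.span Qb (G.A : Set (M → Qb)) = ⊤ := by
  classical
  cases nonempty_fintype M
  let B : Subalgebra Qb (M → Qb) := Algebra.adjoin Qb (G.A : Set (M → Qb))
  have hB : Subalgebra.toSubmodule B = Submodule.span Qb (G.A : Set (M → Qb)) := by
    rw [Algebra.adjoin_eq_span]
    congr 1
    refine le_antisymm ?_ Submonoid.subset_closure
    intro f hf
    induction hf using Submonoid.closure_induction with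
    | mem f hf => exact hf
    | one => exact G.A.one_mem
    | mul f g _ _ hf hg => exact G.A.mul_mem hf hg
  rw [← hB, eq_top_iff]
  have hsingle : ∀ x : M, (Pi.single x 1 : M → Qb) ∈ B := fun x => by
    have hsep : ∀ y : M, ∃ f ∈ G.A, y ≠ x → f x ≠ f y := fun y => by
      rcases eq_or_ne y x with rfl | hy
      · exact ⟨1, G.A.one_mem, fun h => absurd rfl h⟩
      · by_contra! h
        exact hy (G.separates y x fun f hf => ((h f hf).2).symm)
    choose g hgA hg using hsep
    have h : (Pi.single x 1 : M → Qb) = ∏ y ∈ Finset.univ.erase x,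
        ((g y x - g y y)⁻¹ • (g y - algebraMap Qb (M → Qb) (g y y))) := by
      funext z
      rw [Finset.prod_apply]
      rcases eq_or_ne z x with rfl | hz
      · rw [Pi.single_eq_same, Finset.prod_eq_one]
        intro y hy
        simp [inv_mul_cancel₀ (sub_ne_zero.mpr (hg y (Finset.ne_of_mem_erase hy)))]
      · rw [Pi.single_eq_of_ne hz, Finset.prod_eq_zero (Finset.mem_erase.mpr ⟨hz, Finset.mem_univ z⟩)]
        simp
    rw [h]
    exact B.prod_mem fun y _ => B.smul_mem
      (B.sub_mem (Algebra.subset_adjoin (hgA y)) (B.algebraMap_mem _)) _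
  intro f _
  rw [pi_eq_sum_univ' f]
  exact Submodule.sum_mem _ fun x _ => Submodule.smul_mem _ _ (hsingle x)

theorem span_basis_eq_top : ⊤ ≤ Submodule.span Qb (Set.range (G.A.val ∘ G.basis)) := by
  rw [← G.span_eq_top, Submodule.span_le]
  intro f hf
  have h := G.basis.sum_repr ⟨f, hf⟩
  have h2 := congrArg Subtype.val h
  simp only [AddSubmonoidClass.coe_finsetSum, SetLike.val_smul] at h2
  rw [← h2]
  refine Submodule.sum_mem _ fun i _ => ?_
  rw [← IsScalarTower.algebraMap_smul Qb]
  exact Submodule.smul_mem _ _ (Submodule.subset_span ⟨i, rfl⟩)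

/-- Points of the model are points of the module. -/
theorem exists_eq_eval (g : G.A →ₐ[Rp p] Qb) : ∃ x : M, ∀ f : G.A, g f = (f : M → Qb) x := by
  classical
  cases nonempty_fintype M
  let β := Module.Basis.mk G.linearIndependent_basis G.span_basis_eq_top
  let E : (M → Qb) →ₗ[Qb] Qb := β.constr Qb fun i => g (G.basis i)
  have hE : ∀ f : G.A, E f = g f := by
    intro f
    have h := G.basis.sum_repr f
    conv_lhs => rw [← h]
    conv_rhs => rw [← h]
    rw [AddSubmonoidClass.coe_finsetSum, map_sum, map_sum]
    refine Finset.sum_congr rfl fun i _ => ?_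
    rw [SetLike.val_smul, ← IsScalarTower.algebraMap_smul Qb, map_smul, map_smul,
      show ((G.basis i : G.A) : M → Qb) = β i by simp [β], Module.Basis.constr_basis,
      IsScalarTower.algebraMap_smul]
  have hmul : ∀ u v : M → Qb, E (u * v) = E u * E v := by
    intro u v
    have hu : u ∈ Submodule.span Qb (G.A : Set (M → Qb)) := G.span_eq_top ▸ Submodule.mem_top
    induction hu using Submodule.span_induction with
    | mem u hu =>
      have hv : v ∈ Submodule.span Qb (G.A : Set (M → Qb)) := G.span_eq_top ▸ Submodule.mem_top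
      induction hv using Submodule.span_induction with
      | mem v hv =>
        rw [hE ⟨u, hu⟩, hE ⟨v, hv⟩, ← map_mul, ← hE]
        rfl
      | zero => simp
      | add a b _ _ ha hb => rw [mul_add, map_add, map_add, mul_add, ha, hb]
      | smul c a _ ha => rw [mul_smul_comm, map_smul, map_smul, ha, mul_smul_comm]
    | zero => simp
    | add a b _ _ ha hb => rw [add_mul, map_add, map_add, add_mul, ha, hb]
    | smul c a _ ha => rw [smul_mul_assoc, map_smul, map_smul, ha, smul_mul_assoc]
  have hone : E 1 = 1 := by rw [← map_one g, ← hE]; rfl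
  have hex : ∃ x, E (Pi.single x 1) ≠ 0 := by
    by_contra! h
    rw [pi_eq_sum_univ' (1 : M → Qb), map_sum] at hone
    simp [h] at hone
  obtain ⟨x, hx⟩ := hex
  refine ⟨x, fun f => ?_⟩
  have h1 : (f : M → Qb) * Pi.single x 1 = (f : M → Qb) x • (Pi.single x 1 : M → Qb) := by
    funext z
    rcases eq_or_ne z x with rfl | hz <;> simp [*]
  have h2 := congrArg E h1
  rw [hmul, map_smul, smul_eq_mul, hE] at h2
  exact mul_right_cancel₀ hx h2

/-- The points as an equivalence. -/
def pointsEquiv : WithConv (G.A →ₐ[Rp p] Qb) ≃ M :=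
  (Equiv.ofBijective
    (fun x => WithConv.toConv ((Pi.evalAlgHom (Rp p) (fun _ : M => Qb) x).comp G.A.val))
    ⟨fun x y h => G.separates x y fun f hf =>
        congrArg (fun φ : WithConv (G.A →ₐ[Rp p] Qb) => φ.ofConv ⟨f, hf⟩) h,
      fun g => by
        obtain ⟨x, hx⟩ := G.exists_eq_eval g.ofConv
        exact ⟨x, WithConv.ofConv_injective (AlgHom.ext fun f => (hx f).symm)⟩⟩).symm

theorem apply_pointsEquiv (g : WithConv (G.A →ₐ[Rp p] Qb)) (f : G.A) :
    (f : M → Qb) (G.pointsEquiv g) = g f := by
  conv_rhs => rw [← G.pointsEquiv.symm_apply_apply g]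
  rfl

include G in
/-- **The finite flat group scheme attached to a function model.** -/
theorem exists_hopf :
    ∃ (H : Type) (_ : CommRing H) (_ : HopfAlgebra (GaloisRep.ratLocalizedAt p) H),
      Module.Finite (GaloisRep.ratLocalizedAt p) H ∧
      Module.Flat (GaloisRep.ratLocalizedAt p) H ∧
      Coalgebra.IsCocomm (GaloisRep.ratLocalizedAt p) H ∧
      ∃ e : WithConv (H →ₐ[GaloisRep.ratLocalizedAt p] AlgebraicClosure ℚ) ≃ M,
        (∀ f g : WithConv (H →ₐ[GaloisRep.ratLocalizedAt p] AlgebraicClosure ℚ),
          e (f * g) = e f + e g) ∧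
        ∀ (σ : AlgebraicClosure ℚ ≃ₐ[ℚ] AlgebraicClosure ℚ)
          (f g : WithConv (H →ₐ[GaloisRep.ratLocalizedAt p] AlgebraicClosure ℚ)),
          (∀ h : H, g h = σ (f h)) → e g = act σ (e f) := by
  refine ⟨G.A, inferInstance, G.hopfAlgebra, inferInstance, inferInstance, ?_, G.pointsEquiv,
    fun f g => ?_, fun σ f g h => ?_⟩
  · let _ := G.hopfAlgebra
    refine ⟨LinearMap.ext fun f => G.prodTensor_self_injective (funext fun z => ?_)⟩
    show prodTensor G.A.val G.A.val (TensorProduct.comm _ _ _ (G.comul f)) z =
      prodTensor G.A.val G.A.val (G.comul f) z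
    have h : ∀ t : G.A ⊗[Rp p] G.A,
        prodTensor G.A.val G.A.val (TensorProduct.comm _ _ _ t) z =
          prodTensor G.A.val G.A.val t (z.2, z.1) := by
      intro t
      induction t using TensorProduct.induction_on with
      | zero => simp
      | tmul a b => simp [prodTensor_tmul, mul_comm]
      | add a b ha hb => simp only [map_add, Pi.add_apply, ha, hb]
    rw [h, G.prodTensor_comul, G.prodTensor_comul, add_comm]
  · let _ := G.hopfAlgebra
    refine G.separates _ _ fun a ha => ?_
    refine (G.apply_pointsEquiv (f * g) ⟨a, ha⟩).trans ?_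
    rw [AlgHom.convMul_apply]
    have h : ∀ t : G.A ⊗[Rp p] G.A,
        Algebra.TensorProduct.lift f.ofConv g.ofConv (fun _ _ => Commute.all _ _) t =
          prodTensor G.A.val G.A.val t (G.pointsEquiv f, G.pointsEquiv g) := by
      intro t
      induction t using TensorProduct.induction_on with
      | zero => simp
      | tmul b c =>
        simp only [Algebra.TensorProduct.lift_tmul, prodTensor_tmul, Subalgebra.coe_val]
        rw [G.apply_pointsEquiv f b, G.apply_pointsEquiv g c]
      | add b c hb hc => simp only [map_add, Pi.add_apply, hb, hc]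
    refine Eq.trans ?_ ((G.prodTensor_comul ⟨a, ha⟩ (G.pointsEquiv f, G.pointsEquiv g)))
    exact h _
  · refine G.separates _ _ fun a ha => ?_
    rw [G.equivariant a ha]
    exact (G.apply_pointsEquiv g ⟨a, ha⟩).trans
      ((h ⟨a, ha⟩).trans (congrArg σ (G.apply_pointsEquiv f ⟨a, ha⟩).symm))

end FunctionModel

end FermatAgent.GalRep.Flat
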