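import Fermat.Agent.GalRep.Flat.Model
import Mathlib.RingTheory.HopfAlgebra.Convolution
import Mathlib.RingTheory.IntegralClosure.IsIntegralClosure.Basic

/-!
Closure properties of function models: points of finite Hopf algebras, equivariant subgroups,
equivariant quotients and finite powers.
-/

set_option autoImplicit false

noncomputable section

namespace FermatAgent.GalRep.Flat

open scoped TensorProduct

local notation "Qb" => AlgebraicClosure ℚ
local notation "GQ" => AlgebraicClosure ℚ ≃ₐ[ℚ] AlgebraicClosure ℚ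
local notation "Rp" => GaloisRep.ratLocalizedAt

variable {p : ℕ}

/-- A Galois automorphism as a `ℤ_(p)`-algebra endomorphism. -/
def galHom (p : ℕ) (σ : GQ) : Qb →ₐ[Rp p] Qb where
  toRingHom := (σ : Qb ≃+* Qb).toRingHom
  commutes' r := σ.commutes (r : ℚ)

@[simp] theorem galHom_apply (σ : GQ) (z : Qb) : galHom p σ z = σ z := rfl

namespace FunctionModel

variable {M : Type} [AddCommGroup M] {act : GQ → M → M}

/-- The function model given by the points of a finite Hopf algebra. -/
def ofHopf {H : Type} [CommRing H] [HopfAlgebra (Rp p) H] [Module.Finite (Rp p) H]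
    (e : WithConv (H →ₐ[Rp p] Qb) ≃ M) (hadd : ∀ f g, e (f * g) = e f + e g)
    (hequiv : ∀ (σ : GQ) (f g : WithConv (H →ₐ[Rp p] Qb)),
      (∀ h : H, g h = σ (f h)) → e g = act σ (e f)) : FunctionModel p M act where
  A := (AlgHom.pi fun x => (e.symm x).ofConv).range
  fg := by
    have h : Subalgebra.toSubmodule (AlgHom.pi fun x => (e.symm x).ofConv).range =
        LinearMap.range (AlgHom.pi fun x => (e.symm x).ofConv).toLinearMap := by
      ext f; simp
    rw [h, LinearMap.range_eq_map]
    exact Module.Finite.fg_top.map _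
  equivariant := by
    rintro _ ⟨h, rfl⟩ σ x
    have key := hequiv σ (e.symm x)
      (WithConv.toConv ((galHom p σ).comp (e.symm x).ofConv)) fun _ => rfl
    rw [e.apply_symm_apply, ← e.eq_symm_apply] at key
    show e.symm (act σ x) h = σ (e.symm x h)
    rw [← key]
    rfl
  separates x y hxy := e.symm.injective (WithConv.ofConv_injective (AlgHom.ext fun h =>
    hxy _ ⟨h, rfl⟩))
  add_mem := by
    rintro _ ⟨h, rfl⟩
    let φ : H →ₐ[Rp p] (M → Qb) := AlgHom.pi fun x => (e.symm x).ofConv
    refine ⟨Algebra.TensorProduct.map φ.rangeRestrict φ.rangeRestrict (CoalgebraStruct.comul h),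
      funext fun z => ?_⟩
    have hz : e.symm (z.1 + z.2) = e.symm z.1 * e.symm z.2 := by
      rw [Equiv.symm_apply_eq, hadd, e.apply_symm_apply, e.apply_symm_apply]
    show _ = e.symm (z.1 + z.2) h
    rw [hz, AlgHom.convMul_apply]
    generalize (CoalgebraStruct.comul h : H ⊗[Rp p] H) = t
    induction t using TensorProduct.induction_on with
    | zero => simp
    | tmul a b => rw [Algebra.TensorProduct.lift_tmul]; rfl
    | add a b ha hb => simp only [map_add, Pi.add_apply, ← ha, ← hb]
  neg_mem := by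
    rintro _ ⟨h, rfl⟩
    refine ⟨HopfAlgebra.antipodeAlgHom (Rp p) H h, funext fun x => ?_⟩
    show e.symm x (HopfAlgebra.antipodeAlgHom (Rp p) H h) = e.symm (-x) h
    have h1 : WithConv.toConv ((e.symm x).ofConv.comp (HopfAlgebra.antipodeAlgHom (Rp p) H)) *
        e.symm x = 1 := by
      apply WithConv.ofConv_injective
      have hd := AlgHom.comp_convMul_distrib (e.symm x).ofConv
        (WithConv.toConv (HopfAlgebra.antipodeAlgHom (Rp p) H)) (WithConv.toConv (AlgHom.id (Rp p) H))
      rw [AlgHom.antipode_id_cancel] at hd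
      refine hd.symm.trans (AlgHom.ext fun c => ?_)
      exact (e.symm x).ofConv.commutes _
    have h0 : e 1 = 0 := by
      have h2 := hadd 1 1
      rw [one_mul] at h2
      exact right_eq_add.mp h2
    have h3 := congrArg e h1
    rw [hadd, h0, e.apply_symm_apply, ← eq_neg_iff_add_eq_zero, ← e.eq_symm_apply] at h3
    rw [← h3]
    rfl

/-- Restriction to an equivariant subgroup. -/
def restrict (G : FunctionModel p M act) {M' : Type} [AddCommGroup M'] (act' : GQ → M' → M')
    (j : M' →+ M) (hj : Function.Injective j) (hjact : ∀ σ x, j (act' σ x) = act σ (j x)) :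
    FunctionModel p M' act' where
  A := G.A.map (precomp j)
  fg := by rw [Subalgebra.map_toSubmodule]; exact G.fg.map _
  equivariant := by
    rintro _ ⟨f, hf, rfl⟩ σ x
    show f (j (act' σ x)) = σ (f (j x))
    rw [hjact, G.equivariant f hf]
  separates x y h := hj (G.separates _ _ fun f hf => h (precomp (p := p) j f) ⟨f, hf, rfl⟩)
  add_mem := by
    rintro _ ⟨f, hf, rfl⟩
    obtain ⟨t, ht⟩ := G.add_mem f hf
    let r : G.A →ₐ[Rp p] G.A.map (precomp (p := p) (⇑j)) :=
      ((precomp (p := p) (⇑j)).comp G.A.val).codRestrict _ fun a => ⟨a, a.2, rfl⟩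
    refine ⟨Algebra.TensorProduct.map r r t, funext fun z => ?_⟩
    show _ = f (j (z.1 + z.2))
    rw [map_add]
    refine Eq.trans ?_ (congrFun ht (j z.1, j z.2))
    clear ht
    induction t using TensorProduct.induction_on with
    | zero => simp
    | tmul a b => rfl
    | add a b ha hb =>
      simp only [map_add, Pi.add_apply] at ha hb ⊢
      exact congrArg₂ (· + ·) ha hb
  neg_mem := by
    rintro _ ⟨f, hf, rfl⟩
    refine ⟨_, G.neg_mem f hf, funext fun x => ?_⟩
    show f (-j x) = f (j (-x))
    rw [map_neg]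

section Quotient

variable (G : FunctionModel p M act) [Finite M] {M'' : Type} [AddCommGroup M'']
  {act'' : GQ → M'' → M''} (π : M →+ M'') (hπ : Function.Surjective π)
  (hπact : ∀ σ x, π (act σ x) = act'' σ (π x))

/-- The functions on `M''` whose pullbacks lie in the model. -/
def quotAlg : Subalgebra (Rp p) (M'' → Qb) := G.A.comap (precomp π)

/-- The defect of invariance under `ker π`. -/
def defect : G.A →ₗ[Rp p] (π.ker × M → Qb) where
  toFun f z := (f : M → Qb) (z.2 + z.1) - (f : M → Qb) z.2
  map_add' f g := funext fun z => by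
    simp only [Subalgebra.coe_add, Pi.add_apply]; ring
  map_smul' r f := funext fun z => by
    simp only [Subalgebra.coe_smul, Pi.smul_apply, RingHom.id_apply, smul_sub]

include hπ hπact in
/-- A linear projection of the model onto the functions factoring through `π`. -/
theorem exists_descend : ∃ P : G.A →ₗ[Rp p] quotAlg G π,
    ∀ (s : Finset (G.A × G.A)) (c : G.A × G.A → Qb),
      (∀ x k, π k = 0 → ∑ i ∈ s, c i * (i.1 : M → Qb) (x + k) =
        ∑ i ∈ s, c i * (i.1 : M → Qb) x) →
      ∀ x, ∑ i ∈ s, c i * (i.1 : M → Qb) x = ∑ i ∈ s, c i * (P i.1 : M'' → Qb) (π x) := by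
  classical
  let D := defect G π
  have hfinD : Module.Finite (Rp p) (LinearMap.range D) := Module.Finite.range D
  have htf : Module.IsTorsionFree (Rp p) (LinearMap.range D) := .of_smul_eq_zero fun r f h => by
    refine or_iff_not_imp_left.mpr fun hr => Subtype.ext (funext fun x => ?_)
    have h1 : r • (f : π.ker × M → Qb) x = 0 := congrFun (congrArg Subtype.val h) x
    rw [smul_qbar_eq, mul_eq_zero, Rat.cast_eq_zero] at h1
    exact h1.resolve_left fun h2 => hr (Subtype.ext h2)
  have hfree : Module.Free (Rp p) (LinearMap.range D) := Module.free_of_finite_type_torsion_free'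
  let b := Module.Free.chooseBasis (Rp p) (LinearMap.range D)
  choose c₀ hc₀ using fun j => LinearMap.mem_range.mp (b j).2
  let ψ : G.A →ₗ[Rp p] (Module.Free.ChooseBasisIndex (Rp p) (LinearMap.range D) →₀ Rp p) :=
    b.repr.toLinearMap ∘ₗ D.rangeRestrict
  let s₀ : (Module.Free.ChooseBasisIndex (Rp p) (LinearMap.range D) →₀ Rp p) →ₗ[Rp p] G.A :=
    Finsupp.linearCombination (Rp p) c₀
  let proj : G.A →ₗ[Rp p] G.A := LinearMap.id - s₀ ∘ₗ ψ
  have hDs : ∀ a, D (s₀ a) = ∑ j, a j • (b j : π.ker × M → Qb) := fun a => by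
    simp only [s₀, Finsupp.linearCombination_apply]
    rw [Finsupp.sum_fintype _ _ fun i => zero_smul (Rp p) (c₀ i), map_sum]
    simp only [map_smul, hc₀]
  have hDψ : ∀ f, D f = ∑ j, ψ f j • (b j : π.ker × M → Qb) := fun f => by
    have h := congrArg Subtype.val (b.sum_repr (D.rangeRestrict f))
    simp only [AddSubmonoidClass.coe_finsetSum, SetLike.val_smul] at h
    exact h.symm
  have hproj : ∀ f : G.A, D (proj f) = 0 := fun f => by
    simp only [proj, LinearMap.sub_apply, LinearMap.id_apply, LinearMap.comp_apply, map_sub, hDs,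
      ← hDψ, sub_self]
  have hinv : ∀ (f : G.A) (x y : M), π x = π y →
      (proj f : M → Qb) x = (proj f : M → Qb) y := fun f x y hxy => by
    have hk : x - y ∈ π.ker := by rw [AddMonoidHom.mem_ker, map_sub, hxy, sub_self]
    have h : (proj f : M → Qb) (y + (x - y)) - (proj f : M → Qb) y = 0 :=
      congrFun (hproj f) (⟨x - y, hk⟩, y)
    rwa [add_sub_cancel, sub_eq_zero] at h
  have hmem : ∀ f : G.A,
      (fun w => (proj f : M → Qb) (Function.surjInv hπ w)) ∈ quotAlg G π := fun f => by
    show (fun x => (proj f : M → Qb) (Function.surjInv hπ (π x))) ∈ G.A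
    convert (proj f).2 using 1
    exact funext fun x => hinv f _ _ (Function.surjInv_eq hπ _)
  let P : G.A →ₗ[Rp p] quotAlg G π :=
    { toFun := fun f => ⟨_, hmem f⟩
      map_add' := fun f g => Subtype.ext (funext fun w => by simp)
      map_smul' := fun r f => Subtype.ext (funext fun w => by simp) }
  have hP : ∀ f x, (P f : M'' → Qb) (π x) = (proj f : M → Qb) x := fun f x =>
    hinv f _ _ (Function.surjInv_eq hπ _)
  refine ⟨P, fun s c hc x => ?_⟩
  -- independence of the defects over `ℚ̄`
  have hker : ∀ (σ : GQ) (k : π.ker), act σ k ∈ π.ker := fun σ k => by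
    have h0 : act'' σ 0 = 0 := by
      have h := hπact σ 0
      rwa [G.act_zero, map_zero, eq_comm] at h
    rw [AddMonoidHom.mem_ker, hπact, k.2, h0]
  let act₂ : GQ → π.ker × M → π.ker × M := fun σ z => (⟨_, hker σ z.1⟩, act σ z.2)
  have hsurj : ∀ σ, Function.Surjective (act₂ σ) := fun σ => Finite.surjective_of_injective
    fun z w h => by
      simp only [act₂, Prod.mk.injEq, Subtype.mk.injEq] at h
      exact Prod.ext (Subtype.ext (G.act_injective σ h.1)) (G.act_injective σ h.2)
  have hbeq : ∀ j, IsEquivariant act₂ (b j : π.ker × M → Qb) := fun j σ z => by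
    rw [← hc₀ j]
    show (c₀ j : M → Qb) (act σ z.2 + act σ z.1) - (c₀ j : M → Qb) (act σ z.2) =
      σ ((c₀ j : M → Qb) (z.2 + z.1) - (c₀ j : M → Qb) z.2)
    rw [← G.act_add, G.equivariant _ (c₀ j).2, G.equivariant _ (c₀ j).2, map_sub]
  have hli : LinearIndependent Qb fun j => (b j : π.ker × M → Qb) :=
    linearIndependent_qbar (p := p) hsurj hbeq
      (b.linearIndependent.map' (LinearMap.range D).subtype (Submodule.ker_subtype _))
  have hcoef : ∀ j, ∑ i ∈ s, c i * ((ψ i.1 j : ℚ) : Qb) = 0 := by
    refine fun j => linearIndependent_iff'.mp hli Finset.univ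
      (fun j => ∑ i ∈ s, c i * ((ψ i.1 j : ℚ) : Qb)) (funext fun z => ?_) j (Finset.mem_univ j)
    simp only [Finset.sum_apply, Pi.smul_apply, smul_eq_mul, Pi.zero_apply, Finset.sum_mul]
    rw [Finset.sum_comm]
    calc ∑ i ∈ s, ∑ j, c i * ((ψ i.1 j : ℚ) : Qb) * (b j : π.ker × M → Qb) z
        = ∑ i ∈ s, c i * D i.1 z := by
          refine Finset.sum_congr rfl fun i _ => ?_
          rw [hDψ, Finset.sum_apply, Finset.mul_sum]
          exact Finset.sum_congr rfl fun j _ => by rw [Pi.smul_apply, smul_qbar_eq, mul_assoc]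
      _ = 0 := by
          show ∑ i ∈ s, c i * ((i.1 : M → Qb) (z.2 + z.1) - (i.1 : M → Qb) z.2) = 0
          simp only [mul_sub, Finset.sum_sub_distrib, hc z.2 z.1 z.1.2, sub_self]
  have hs : ∀ i : G.A × G.A, (i.1 : M → Qb) x =
      (proj i.1 : M → Qb) x + ∑ j, ((ψ i.1 j : ℚ) : Qb) * (c₀ j : M → Qb) x := fun i => by
    simp only [proj, s₀, LinearMap.sub_apply, LinearMap.id_apply, LinearMap.comp_apply,
      Finsupp.linearCombination_apply]
    rw [Finsupp.sum_fintype _ _ fun k => zero_smul (Rp p) (c₀ k)]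
    simp only [Subalgebra.coe_sub, Pi.sub_apply, AddSubmonoidClass.coe_finsetSum, Subalgebra.coe_smul,
      Finset.sum_apply, Pi.smul_apply, smul_qbar_eq, sub_add_cancel]
  simp only [hP]
  calc ∑ i ∈ s, c i * (i.1 : M → Qb) x
      = ∑ i ∈ s, c i * (proj i.1 : M → Qb) x +
          ∑ j, (∑ i ∈ s, c i * ((ψ i.1 j : ℚ) : Qb)) * (c₀ j : M → Qb) x := by
        simp only [Finset.sum_mul]
        rw [Finset.sum_comm, ← Finset.sum_add_distrib]
        exact Finset.sum_congr rfl fun i _ => by
          rw [hs i, mul_add, Finset.mul_sum]; simp [mul_assoc]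
    _ = _ := by simp [hcoef]

include hπ hπact in
theorem quot_separates {x y : M''} (h : ∀ f ∈ quotAlg G π, f x = f y) : x = y := by
  classical
  obtain ⟨P, hP⟩ := exists_descend G π hπ hπact
  obtain ⟨x, rfl⟩ := hπ x
  obtain ⟨y, rfl⟩ := hπ y
  by_contra hne
  let χ : M → Qb := fun z => if π z = π x then 1 else 0
  have hχ : χ ∈ Submodule.span Qb (Set.range (G.A.val ∘ G.basis)) :=
    G.span_basis_eq_top Submodule.mem_top
  obtain ⟨a, ha⟩ := (Submodule.mem_span_range_iff_exists_fun Qb).mp hχ
  let ι := G.basis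
  let s : Finset (G.A × G.A) := Finset.univ.image fun i => (ι i, ι i)
  let c : G.A × G.A → Qb := fun v => ∑ i with ι i = v.1, a i
  have hsum : ∀ z, ∑ v ∈ s, c v * (v.1 : M → Qb) z = χ z := fun z => by
    have hinj : Function.Injective fun i => ((ι i, ι i) : G.A × G.A) :=
      fun i j hij => G.basis.injective (congrArg Prod.fst hij)
    rw [← ha, Finset.sum_apply, Finset.sum_image fun i _ j _ hij => hinj hij]
    refine Finset.sum_congr rfl fun i _ => ?_
    have hci : c (ι i, ι i) = a i := by
      simp only [c]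
      rw [Finset.sum_eq_single i] <;> simp_all [G.basis.injective.eq_iff, ι]
    rw [hci]; rfl
  have key := hP s c fun z k hk => by
    rw [hsum, hsum]
    simp only [χ, map_add, hk, add_zero]
  have h1 : χ x = χ y := by
    rw [← hsum, ← hsum, key x, key y]
    exact Finset.sum_congr rfl fun v _ => by rw [h _ (P v.1).2]
  simp [χ, Ne.symm hne] at h1

include hπ hπact in
theorem quot_add_mem {f : M'' → Qb} (hf : f ∈ quotAlg G π) :
    precomp (p := p) addMap f ∈ (prodTensor (quotAlg G π).val (quotAlg G π).val).range := by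
  obtain ⟨P, hP⟩ := exists_descend G π hπ hπact
  obtain ⟨t, ht⟩ := G.add_mem _ (show precomp (p := p) π f ∈ G.A from hf)
  obtain ⟨s, rfl⟩ := TensorProduct.exists_finset t
  refine ⟨∑ i ∈ s, P i.1 ⊗ₜ P i.2, funext fun z => ?_⟩
  obtain ⟨x, hx⟩ := hπ z.1
  obtain ⟨y, hy⟩ := hπ z.2
  have hxy : ∀ u v, f (π u + π v) = ∑ i ∈ s, (i.1 : M → Qb) u * (i.2 : M → Qb) v := fun u v => by
    rw [← map_add]
    refine (congrFun ht (u, v)).symm.trans ?_
    simp [Finset.sum_apply, prodTensor_tmul]
  have h1 : ∀ u v, f (π u + π v) = ∑ i ∈ s, (P i.1 : M'' → Qb) (π u) * (i.2 : M → Qb) v := by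
    intro u v
    have h := hP s (fun i => (i.2 : M → Qb) v) (fun w k hk => by
      simp only [mul_comm ((_ : M → Qb) v), ← hxy, map_add, hk, add_zero]) u
    simp only [mul_comm ((_ : M → Qb) v)] at h
    rw [hxy, h]
  show _ = f (z.1 + z.2)
  rw [← hx, ← hy]
  let e : G.A × G.A ≃ G.A × G.A := Equiv.prodComm _ _
  have h2 := hP (s.map e.toEmbedding) (fun i => (P i.2 : M'' → Qb) (π x)) (fun w k hk => by
    rw [Finset.sum_map, Finset.sum_map]
    have hw : f (π x + π (w + k)) = f (π x + π w) := by rw [map_add, hk, add_zero]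
    exact (h1 x (w + k)).symm.trans (hw.trans (h1 x w))) y
  rw [Finset.sum_map, Finset.sum_map] at h2
  rw [h1 x y]
  refine Eq.trans ?_ h2.symm
  simp [Finset.sum_apply, prodTensor_tmul, e, hx, hy]

omit [Finite M] in
include hπ in
theorem quot_fg : (quotAlg G π).toSubmodule.FG := by
  let L : (quotAlg G π) →ₗ[Rp p] G.A :=
    (((precomp (p := p) (⇑π)).comp (quotAlg G π).val).codRestrict G.A fun f => f.2).toLinearMap
  have hL : Function.Injective L := fun f g hfg => Subtype.ext (hπ.injective_comp_right
    (congrArg Subtype.val hfg))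
  have : Module.Finite (Rp p) (quotAlg G π) := Module.Finite.of_injective L hL
  exact Module.Finite.iff_fg.mp this

/-- The model of an equivariant quotient. -/
def quotient : FunctionModel p M'' act'' where
  A := quotAlg G π
  fg := quot_fg G π hπ
  equivariant f hf σ w := by
    obtain ⟨x, rfl⟩ := hπ w
    rw [← hπact]
    exact G.equivariant _ hf σ x
  separates _ _ h := quot_separates G π hπ hπact h
  add_mem _ hf := quot_add_mem G π hπ hπact hf
  neg_mem f hf := by
    show precomp (p := p) π (precomp (p := p) (fun x : M'' => -x) f) ∈ G.A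
    have h := G.neg_mem _ (show precomp (p := p) π f ∈ G.A from hf)
    convert h using 1
    funext x
    simp

end Quotient

section Pow

variable (G : FunctionModel p M act) (ι : Type) [Finite ι]

/-- The algebra generated by the coordinate pullbacks. -/
def powAlg : Subalgebra (Rp p) ((ι → M) → Qb) :=
  Algebra.adjoin (Rp p) (⋃ i : ι, precomp (p := p) (fun x : ι → M => x i) ''
    Set.range fun j => (G.basis j : M → Qb))

omit [Finite ι] in
theorem precomp_mem_powAlg (i : ι) (a : G.A) :
    precomp (p := p) (fun x : ι → M => x i) (a : M → Qb) ∈ powAlg G ι := by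
  rw [← G.basis.sum_repr a, AddSubmonoidClass.coe_finsetSum, map_sum]
  refine Subalgebra.sum_mem _ fun j _ => ?_
  rw [Subalgebra.coe_smul, map_smul]
  refine Subalgebra.smul_mem _ (Algebra.subset_adjoin ?_) _
  exact Set.mem_iUnion.mpr ⟨i, _, Set.mem_range_self j, rfl⟩

/-- The coordinate pullback. -/
def powIncl (i : ι) : G.A →ₐ[Rp p] powAlg G ι :=
  ((precomp (p := p) fun x : ι → M => x i).comp G.A.val).codRestrict _
    fun a => precomp_mem_powAlg G ι i a

/-- The model of a finite power. -/
def pow : FunctionModel p (ι → M) (fun σ x i => act σ (x i)) where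
  A := powAlg G ι
  fg := by
    refine fg_adjoin_of_finite (Set.finite_iUnion fun i => (Set.finite_range _).image _) ?_
    rintro f hf
    obtain ⟨i, hi⟩ := Set.mem_iUnion.mp hf
    obtain ⟨_, ⟨j, rfl⟩, rfl⟩ := hi
    exact ((IsIntegral.of_finite (Rp p) (G.basis j)).map G.A.val).map _
  equivariant := by
    intro f hf
    induction hf using Algebra.adjoin_induction with
    | mem f hf =>
      obtain ⟨i, hi⟩ := Set.mem_iUnion.mp hf
      obtain ⟨_, ⟨j, rfl⟩, rfl⟩ := hi
      exact fun σ x => G.equivariant _ (G.basis j).2 σ (x i)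
    | algebraMap r => exact fun σ x => ((galHom p σ).commutes r).symm
    | add f g _ _ hf hg =>
      exact fun σ x => by rw [Pi.add_apply, Pi.add_apply, hf σ x, hg σ x, map_add]
    | mul f g _ _ hf hg =>
      exact fun σ x => by rw [Pi.mul_apply, Pi.mul_apply, hf σ x, hg σ x, map_mul]
  separates x y h := funext fun i => G.separates _ _ fun f hf =>
    h _ (precomp_mem_powAlg G ι i ⟨f, hf⟩)
  add_mem := by
    intro f hf
    refine (Algebra.adjoin_le ?_ :
      powAlg G ι ≤ ((prodTensor (powAlg G ι).val (powAlg G ι).val).range).comap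
        (precomp (p := p) addMap)) hf
    intro f hf
    obtain ⟨i, hi⟩ := Set.mem_iUnion.mp hf
    obtain ⟨_, ⟨j, rfl⟩, rfl⟩ := hi
    obtain ⟨t, ht⟩ := G.add_mem _ (G.basis j).2
    refine ⟨Algebra.TensorProduct.map (powIncl G ι i) (powIncl G ι i) t, funext fun z => ?_⟩
    refine Eq.trans ?_ (congrFun ht (z.1 i, z.2 i))
    clear ht
    induction t using TensorProduct.induction_on with
    | zero => simp
    | tmul a b => rfl
    | add a b ha hb =>
      simp only [map_add, Pi.add_apply] at ha hb ⊢
      exact congrArg₂ (· + ·) ha hb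
  neg_mem := by
    intro f hf
    refine (Algebra.adjoin_le ?_ :
      powAlg G ι ≤ (powAlg G ι).comap (precomp (p := p) fun x : ι → M => -x)) hf
    intro f hf
    obtain ⟨i, hi⟩ := Set.mem_iUnion.mp hf
    obtain ⟨_, ⟨j, rfl⟩, rfl⟩ := hi
    exact precomp_mem_powAlg G ι i ⟨_, G.neg_mem _ (G.basis j).2⟩

end Pow

end FunctionModel

end FermatAgent.GalRep.Flat
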