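import Fermat.Agent.GalRep.Flat.Relations
import Fermat.Agent.GalRep.Flat.Closure
import Fermat.Agent.GalRep.Construct.TateData
import Fermat.Prelude.Def_GaloisRep_Flat
import Mathlib.RingTheory.Artinian.Ring

/-!
A Hecke-Galois datum is flat at `p` when the `p`-power torsion of `J₀(N)` has finite flat models
over `ℤ_(p)`.
-/

set_option autoImplicit false

noncomputable section

namespace FermatAgent.GalRep.Flat

open CuspForm Matrix IsLocalRing

local notation "Qb" => AlgebraicClosure ℚ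
local notation "GQ" => AlgebraicClosure ℚ ≃ₐ[ℚ] AlgebraicClosure ℚ

variable {p : ℕ} [Fact p.Prime] {N : ℕ} [NeZero N]

section Level

variable {S : Set ℕ} (D : HeckeTateData N p S)

/-- The action on `Λ / pᵐ Λ`. -/
def levelAct (m : ℕ) (σ : GQ) (x : Fin D.rank → ZMod (p ^ m)) : Fin D.rank → ZMod (p ^ m) :=
  (PadicInt.toZModPow m).mapMatrix (D.ρ σ) *ᵥ x

/-- Artin-Rees for the relations: a combination divisible by a high power of `p` is `pⁿ` times a
combination. -/
theorem exists_tateComb_eq_nsmul :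
    ∃ c : ℕ, ∀ (n : ℕ) (l : GQ →₀ ℤ_[p]),
      (∀ i j, (p : ℤ_[p]) ^ (n + c) ∣ tateComb D l i j) →
        ∃ l', tateComb D l = p ^ n • tateComb D l' := by
  obtain ⟨k, hk⟩ := Ideal.exists_pow_inf_eq_pow_smul (Ideal.span {(p : ℤ_[p])})
    (LinearMap.range (tateComb D))
  refine ⟨k, fun n l hl => ?_⟩
  choose q hq using hl
  have hmem : tateComb D l ∈ Ideal.span {(p : ℤ_[p])} ^ (n + k) •
      (⊤ : Submodule ℤ_[p] _) ⊓ LinearMap.range (tateComb D) := by
    refine ⟨?_, ⟨l, rfl⟩⟩
    rw [Ideal.span_singleton_pow, Submodule.ideal_span_singleton_smul]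
    exact ⟨Matrix.of q, Submodule.mem_top, Matrix.ext fun i j => by
      rw [DistribSMul.toLinearMap_apply, Matrix.smul_apply, Matrix.of_apply, smul_eq_mul, hq i j]⟩
  rw [hk (n + k) (by omega), Nat.add_sub_cancel, Ideal.span_singleton_pow,
    Submodule.ideal_span_singleton_smul] at hmem
  obtain ⟨y, ⟨-, ⟨l', rfl⟩⟩, hy⟩ := hmem
  refine ⟨l', ?_⟩
  rw [← hy, DistribSMul.toLinearMap_apply, ← Nat.cast_smul_eq_nsmul ℤ_[p], Nat.cast_pow]

/-- The reduction of a combination, as the list of its columns. -/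
def colMap (m : ℕ) :
    (GQ →₀ ℤ_[p]) →+ (Fin D.rank → Fin D.rank → ZMod (p ^ m)) where
  toFun l j i := PadicInt.toZModPow m (tateComb D l i j)
  map_zero' := by ext; simp
  map_add' l l' := by ext; simp

theorem colMap_mapDomain_left (m : ℕ) (σ : GQ) (l : GQ →₀ ℤ_[p]) (j : Fin D.rank) :
    colMap D m (l.mapDomain (σ * ·)) j = levelAct D m σ (colMap D m l j) := by
  funext i
  show PadicInt.toZModPow m (tateComb D (l.mapDomain (σ * ·)) i j) = _
  rw [tateComb_mapDomain_left, Matrix.mul_apply, map_sum]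
  simp [levelAct, Matrix.mulVec, dotProduct, colMap]

end Level

variable {S : Finset ℕ}
  {𝒪 : Type} [CommRing 𝒪] [IsDomain 𝒪] [IsDiscreteValuationRing 𝒪]
  [IsAdicComplete (IsLocalRing.maximalIdeal 𝒪) 𝒪]
  {θ : heckeAlgebra N 2 (↑S : Set ℕ) →+* IsLocalRing.ResidueField 𝒪}
  {T : Type} [CommRing T] [IsLocalRing T] [IsNoetherianRing T]
  [IsAdicComplete (IsLocalRing.maximalIdeal T) T] [Algebra 𝒪 T] [IsLocalHom (algebraMap 𝒪 T)]
  [Module.Finite 𝒪 T] [Module.Free 𝒪 T]

omit [IsDomain 𝒪] [IsDiscreteValuationRing 𝒪] [NeZero N] [Fact p.Prime] [IsNoetherianRing T] [IsAdicComplete (IsLocalRing.maximalIdeal T) T]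
  [Module.Finite 𝒪 T] [Module.Free 𝒪 T] [IsAdicComplete (IsLocalRing.maximalIdeal 𝒪) 𝒪] in
theorem finite_residueField_of_surjective [IsLocalRing 𝒪] [Finite (IsLocalRing.ResidueField 𝒪)]
    (h : Function.Surjective (IsLocalRing.residue T ∘ algebraMap 𝒪 T)) :
    Finite (IsLocalRing.ResidueField T) := by
  refine Finite.of_surjective (IsLocalRing.ResidueField.map (algebraMap 𝒪 T)) fun y => ?_
  obtain ⟨x, hx⟩ := h y
  exact ⟨IsLocalRing.residue 𝒪 x, hx⟩

omit [IsAdicComplete (IsLocalRing.maximalIdeal T) T] [IsNoetherianRing T] [Fact p.Prime] in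
theorem exists_pow_mem_of_finite_quotient (hpT : (p : T) ∈ IsLocalRing.maximalIdeal T)
    (I : Ideal T) (hI : Finite (T ⧸ I)) : ∃ n, (p : T) ^ n ∈ I := by
  rcases eq_or_ne I ⊤ with rfl | hne
  · exact ⟨0, Submodule.mem_top⟩
  have : Nontrivial (T ⧸ I) := Ideal.Quotient.nontrivial_iff.mpr hne
  have hloc : IsLocalRing (T ⧸ I) := .of_surjective' _ Ideal.Quotient.mk_surjective
  have hart : IsArtinianRing (T ⧸ I) := inferInstance
  obtain ⟨n, hn⟩ := IsArtinianRing.isNilpotent_jacobson_bot (R := T ⧸ I)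
  refine ⟨n, Ideal.Quotient.eq_zero_iff_mem.mp ?_⟩
  have hmem : Ideal.Quotient.mk I (p : T) ∈ IsLocalRing.maximalIdeal (T ⧸ I) := by
    intro hu
    obtain ⟨y, hy⟩ := hu.exists_right_inv
    obtain ⟨y, rfl⟩ := Ideal.Quotient.mk_surjective y
    rw [← map_mul, ← (Ideal.Quotient.mk I).map_one, Ideal.Quotient.eq] at hy
    have h1 := Ideal.sub_mem _ (Ideal.mul_mem_right y _ hpT) (IsLocalRing.le_maximalIdeal hne hy)
    rw [sub_sub_cancel] at h1
    exact (Ideal.ne_top_iff_one _).mp (IsLocalRing.maximalIdeal.isMaximal T).ne_top h1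
  rw [IsLocalRing.jacobson_eq_maximalIdeal ⊥ bot_ne_top] at hn
  have h := Ideal.pow_mem_pow hmem n
  rw [hn, Ideal.zero_eq_bot, Ideal.mem_bot] at h
  rw [map_pow]
  exact h

omit [IsNoetherianRing T] in
/-- **Flatness at `p`** of one point, from models of the `p`-power torsion of the Tate module. -/
theorem pointDatum_isFlatAt [Finite (IsLocalRing.ResidueField T)]
    (D : HeckeTateData N p (↑S : Set ℕ)) (hd : FrobDense)
    (hmodel : ∀ m, Nonempty (FunctionModel p (Fin D.rank → ZMod (p ^ m)) (levelAct D m)))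
    (hpT : (p : T) ∈ IsLocalRing.maximalIdeal T)
    (H : PointDatum N (↑S : Set ℕ) T) : H.ρ.IsFlatAt p := by
  refine ⟨inferInstance, fun I hI => ?_⟩
  obtain ⟨n, hn⟩ := exists_pow_mem_of_finite_quotient hpT I hI
  obtain ⟨c, hc⟩ := exists_tateComb_eq_nsmul D
  obtain ⟨G₀⟩ := hmodel (n + c)
  let Q := H.ρ.V ⧸ I • (⊤ : Submodule T H.ρ.V)
  have : Finite Q := Module.finite_of_finite (T ⧸ I)
  -- generators indexed by the quotient itself
  let F := Q → (GQ →₀ ℤ_[p])
  let α : F →+ (Q × Fin D.rank → Fin D.rank → ZMod (p ^ (n + c))) :=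
    AddMonoidHom.mk' (fun l z => colMap D (n + c) (l z.1) z.2) fun l l' => by
      funext z
      show colMap D (n + c) (l z.1 + l' z.1) z.2 = _
      rw [map_add]
      rfl
  cases nonempty_fintype Q
  let β : F →+ Q :=
    ∑ q : Q, ((LinearMap.applyₗ (R := T) q).toAddMonoidHom.comp
      ((Submodule.mapQLinear (I • (⊤ : Submodule T H.ρ.V)) (I • ⊤)).toAddMonoidHom.comp
        ((adicComb hpT H.ρ).codRestrict _ fun l =>
          Submodule.smul_top_le_comap_smul_top I (adicComb hpT H.ρ l)))).comp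
      (Pi.evalAddMonoidHom (fun _ : Q => GQ →₀ ℤ_[p]) q)
  have hβ : ∀ l : F, β l = ∑ q : Q, Submodule.mapQ _ _ (adicComb hpT H.ρ (l q))
      (Submodule.smul_top_le_comap_smul_top I _) q := fun l => by
    simp only [β, AddMonoidHom.finsetSum_apply]
    rfl
  have hker : α.ker ≤ β.ker := by
    intro l hl
    rw [AddMonoidHom.mem_ker, hβ]
    refine Finset.sum_eq_zero fun q _ => ?_
    obtain ⟨l', hl'⟩ := hc n (l q) fun i j => by
      have h : colMap D (n + c) (l q) j i = 0 :=
        congrFun (congrFun (AddMonoidHom.mem_ker.mp hl) (q, j)) i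
      rw [← Ideal.mem_span_singleton, ← PadicInt.ker_toZModPow, RingHom.mem_ker]
      exact h
    have h0 := adicComb_eq_zero D hd hpT H (l q - p ^ n • l')
      (by rw [map_sub, map_nsmul, hl', sub_self])
    rw [map_sub, map_nsmul, sub_eq_zero] at h0
    obtain ⟨v, rfl⟩ := Submodule.Quotient.mk_surjective _ q
    rw [Submodule.mapQ_apply, Submodule.Quotient.mk_eq_zero, h0]
    rw [← Nat.cast_smul_eq_nsmul T, Nat.cast_pow, LinearMap.smul_apply]
    exact Submodule.smul_mem_smul hn Submodule.mem_top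
  let W := α.range
  let π : W →+ Q := α.rangeRestrict.liftOfSurjective α.rangeRestrict_surjective
    ⟨β, by rwa [AddMonoidHom.ker_rangeRestrict]⟩
  have hπ : ∀ l, π (α.rangeRestrict l) = β l := fun l =>
    AddMonoidHom.liftOfRightInverse_comp_apply _ _ _ _ l
  have hsurj : Function.Surjective π := fun q => by
    classical
    refine ⟨α.rangeRestrict (Pi.single q (Finsupp.single 1 1)), ?_⟩
    rw [hπ, hβ, Finset.sum_eq_single q]
    · simp only [Pi.single_eq_same, adicComb_single, map_one, one_smul]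
      exact DFunLike.congr_fun (Submodule.mapQ_id _) q
    · intro q' _ hq'
      simp [Pi.single_eq_of_ne hq']
    · exact fun h => absurd (Finset.mem_univ q) h
  let lft : GQ → F → F := fun σ l q => (l q).mapDomain (σ * ·)
  have hα : ∀ σ l, α (lft σ l) = fun z => levelAct D (n + c) σ (α l z) := fun σ l =>
    funext fun z => colMap_mapDomain_left D (n + c) σ (l z.1) z.2
  have hW : ∀ σ, ∀ w ∈ W, (fun z => levelAct D (n + c) σ (w z)) ∈ W := by
    rintro σ _ ⟨l, rfl⟩
    exact ⟨lft σ l, hα σ l⟩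
  let actW : GQ → W → W := fun σ w => ⟨_, hW σ w w.2⟩
  have hπact : ∀ σ w, π (actW σ w) = H.ρ.levelAction I σ (π w) := by
    intro σ w
    obtain ⟨l, rfl⟩ := α.rangeRestrict_surjective w
    have h : actW σ (α.rangeRestrict l) = α.rangeRestrict (lft σ l) := Subtype.ext (hα σ l).symm
    rw [h, hπ, hπ, hβ, hβ, map_sum]
    refine Finset.sum_congr rfl fun q _ => ?_
    obtain ⟨v, rfl⟩ := Submodule.Quotient.mk_surjective _ q
    simp only [lft, adicComb_mapDomain_left, GaloisRepAdic.levelAction, Submodule.mapQ_apply,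
      Module.End.mul_apply]
  exact (((G₀.pow (Q × Fin D.rank)).restrict actW W.subtype Subtype.val_injective
    fun σ w => rfl).quotient π hsurj hπact).exists_hopf

/-- **Flatness at `p`** of a Hecke-Galois datum. -/
theorem datum_isFlatAt [Finite (IsLocalRing.ResidueField 𝒪)]
    (D : HeckeTateData N p (↑S : Set ℕ)) (hd : FrobDense)
    (hmodel : ∀ m, Nonempty (FunctionModel p (Fin D.rank → ZMod (p ^ m)) (levelAct D m)))
    (hp : (p : 𝒪) ∈ IsLocalRing.maximalIdeal 𝒪)
    (H : HeckeGaloisRepDatum N (↑S : Set ℕ) 𝒪 θ T) : H.ρ.IsFlatAt p :=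
  have := finite_residueField_of_surjective H.residue_surjective
  pointDatum_isFlatAt D hd hmodel (natCast_mem_maximalIdeal_of_algebra (T := T) hp) (pointDatum H)

end FermatAgent.GalRep.Flat
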