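import Fermat.Agent.GalRep.Flat.Datum
import Fermat.Agent.GalRep.Construct.Inputs

/-!
Flatness at `p` of a Hecke-Galois datum, from finite flat models of the `p`-power torsion of
`J₀(N)`.
-/

set_option autoImplicit false

noncomputable section

namespace FermatAgent.GalRep.Flat

open CuspForm ModularCurve AlgebraicCurve Matrix

local notation "Qb" => AlgebraicClosure ℚ
local notation "GQ" => AlgebraicClosure ℚ ≃ₐ[ℚ] AlgebraicClosure ℚ

/-- Finite flat models over `ℤ_(ℓ)` of all `ℓ`-power torsion groups of `J₀(N)`. -/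
def TorsionFlatModels (N ℓ : ℕ) [NeZero N] : Prop :=
  ∀ k : ℕ, ∃ (H : Type) (_ : CommRing H) (_ : HopfAlgebra (GaloisRep.ratLocalizedAt ℓ) H),
    Module.Finite (GaloisRep.ratLocalizedAt ℓ) H ∧ Module.Flat (GaloisRep.ratLocalizedAt ℓ) H ∧
    Coalgebra.IsCocomm (GaloisRep.ratLocalizedAt ℓ) H ∧
    ∃ e : WithConv (H →ₐ[GaloisRep.ratLocalizedAt ℓ] AlgebraicClosure ℚ) ≃
        ↥(Submodule.torsionBy ℤ (JZero N) ((ℓ : ℤ) ^ k)),
      (∀ f g, e (f * g) = e f + e g) ∧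
      ∀ (σ : AlgebraicClosure ℚ ≃ₐ[ℚ] AlgebraicClosure ℚ)
        (f g : WithConv (H →ₐ[GaloisRep.ratLocalizedAt ℓ] AlgebraicClosure ℚ)),
        (∀ h : H, g h = σ (f h)) → ((e g : JZero N)) = σ • (e f : JZero N)

variable {p : ℕ} [Fact p.Prime] {N : ℕ} [NeZero N] {S : Set ℕ}

/-- Models of the torsion give models of the levels of the Tate module. -/
theorem nonempty_levelModel (D : HeckeTorsionData N p S) (hU : TorsionUnramified N p)
    (hQ : TorsionFrobQuadratic N p) (hS : ∀ q : ℕ, q.Prime → q ∣ N → q ∈ S)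
    (hflat : TorsionFlatModels N p) (m : ℕ) :
    Nonempty (FunctionModel p (Fin (heckeTateDataOf D hU hQ hS).rank → ZMod (p ^ m))
      (levelAct (heckeTateDataOf D hU hQ hS) m)) := by
  obtain ⟨H, _, _, hfin, -, -, e, hadd, hequiv⟩ := hflat m
  have hmem : ∀ x : JZero N, x ∈ Submodule.torsionBy ℤ (JZero N) ((p : ℤ) ^ m) ↔
      x ∈ Pic0.torsion Qb (modularFunctionFieldBar N) (p ^ m) := fun x => by
    rw [mem_torsion_pow, Submodule.mem_torsionBy_iff, ← Nat.cast_pow, natCast_zsmul]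
  let τ : ↥(Submodule.torsionBy ℤ (JZero N) ((p : ℤ) ^ m)) ≃+
      Pic0.torsion Qb (modularFunctionFieldBar N) (p ^ m) :=
    { toFun := fun x => ⟨x, (hmem x).mp x.2⟩
      invFun := fun x => ⟨x, (hmem x).mpr x.2⟩
      left_inv := fun _ => rfl
      right_inv := fun _ => rfl
      map_add' := fun _ _ => rfl }
  refine ⟨FunctionModel.ofHopf (e.trans (τ.trans (D.e m)).toEquiv) (fun f g => ?_)
    fun σ f g h => ?_⟩
  · show D.e m (τ (e (f * g))) = D.e m (τ (e f)) + D.e m (τ (e g))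
    rw [hadd, map_add, map_add]
  · show D.e m (τ (e g)) =
      (PadicInt.toZModPow m).mapMatrix (tateMat D σ) *ᵥ D.e m (τ (e f))
    rw [tateMat_toZModPow]
    exact (levelMat_e D m σ (τ (e f)) (τ (e g)) (hequiv σ f g h)).symm

/-- **Flatness at `p`** from the models of the torsion of `J₀(N)`. -/
theorem isFlatAt_of_torsionFlatModels {N : ℕ} [NeZero N] {S : Finset ℕ}
    {𝒪 : Type} [CommRing 𝒪] [IsDomain 𝒪] [IsDiscreteValuationRing 𝒪]
    [IsAdicComplete (IsLocalRing.maximalIdeal 𝒪) 𝒪]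
    {θ : CuspForm.heckeAlgebra N 2 (↑S : Set ℕ) →+* IsLocalRing.ResidueField 𝒪}
    {T : Type} [CommRing T] [IsLocalRing T] [IsNoetherianRing T]
    [IsAdicComplete (IsLocalRing.maximalIdeal T) T] [Algebra 𝒪 T] [IsLocalHom (algebraMap 𝒪 T)]
    [Module.Finite 𝒪 T] [Module.Free 𝒪 T] [Finite (IsLocalRing.ResidueField 𝒪)]
    {p : ℕ} (hp : p.Prime) (hp𝒪 : (p : 𝒪) ∈ IsLocalRing.maximalIdeal 𝒪)
    (hNS : ∀ q : ℕ, q.Prime → q ∣ N → q ∈ S) (hflat : TorsionFlatModels N p)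
    (H : HeckeGaloisRepDatum N (↑S : Set ℕ) 𝒪 θ T) : H.ρ.IsFlatAt p := by
  have := Fact.mk hp
  have hS : ∀ q : ℕ, q.Prime → q ∣ N → q ∈ (↑S : Set ℕ) := fun q hq hqN => hNS q hq hqN
  obtain ⟨D⟩ := FermatAgent.ModCurveTorsion.heckeTorsionInput N p hp (↑S : Set ℕ) hS
  exact datum_isFlatAt
    (heckeTateDataOf D (FermatAgent.ES.torsionUnramified N p)
      (FermatAgent.ES.torsionFrobQuadratic N p) hS) frobDense
    (nonempty_levelModel D (FermatAgent.ES.torsionUnramified N p)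
      (FermatAgent.ES.torsionFrobQuadratic N p) hS hflat) hp𝒪 H

end FermatAgent.GalRep.Flat
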