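import Fermat.Agent.GalRep.Construct.Datum
import Fermat.Agent.GalRep.Construct.TateData

/-!
Linear relations among the Galois elements on the Tate module hold in a Hecke-Galois datum.
-/

set_option autoImplicit false

noncomputable section

namespace FermatAgent.GalRep.Flat

open CuspForm Matrix IsLocalRing

local notation "GQ" => AlgebraicClosure ℚ ≃ₐ[ℚ] AlgebraicClosure ℚ

variable {p : ℕ} [Fact p.Prime] {N : ℕ} [NeZero N]

section Tate

variable {S : Set ℕ} (D : HeckeTateData N p S)

local notation "Mr" => Matrix (Fin D.rank) (Fin D.rank) ℤ_[p]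

/-- The combination of `ρ` on the Tate module. -/
def tateComb : (GQ →₀ ℤ_[p]) →ₗ[ℤ_[p]] Mr := Finsupp.linearCombination ℤ_[p] D.ρ

/-- The combination of `ω ρ⁻¹`. -/
def invComb : (GQ →₀ ℤ_[p]) →ₗ[ℤ_[p]] Mr :=
  Finsupp.linearCombination ℤ_[p] fun σ => cycChar p σ • D.ρ σ⁻¹

theorem tateComb_mapDomain_left (g : GQ) (l : GQ →₀ ℤ_[p]) :
    tateComb D (l.mapDomain (g * ·)) = D.ρ g * tateComb D l := by
  induction l using Finsupp.induction_linear with
  | zero => simp
  | add l m hl hm => simp only [Finsupp.mapDomain_add, map_add, hl, hm, mul_add]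
  | single σ c =>
    simp only [Finsupp.mapDomain_single, tateComb, Finsupp.linearCombination_single, map_mul,
      mul_smul_comm]

theorem tateComb_mapDomain_right (x : GQ) (l : GQ →₀ ℤ_[p]) :
    tateComb D (l.mapDomain (· * x)) = tateComb D l * D.ρ x := by
  induction l using Finsupp.induction_linear with
  | zero => simp
  | add l m hl hm => simp only [Finsupp.mapDomain_add, map_add, hl, hm, add_mul]
  | single σ c =>
    simp only [Finsupp.mapDomain_single, tateComb, Finsupp.linearCombination_single, map_mul,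
      smul_mul_assoc]

theorem invComb_mapDomain_right (x : GQ) (l : GQ →₀ ℤ_[p]) :
    invComb D (l.mapDomain (· * x)) = cycChar p x • (D.ρ x⁻¹ * invComb D l) := by
  induction l using Finsupp.induction_linear with
  | zero => simp
  | add l m hl hm => simp only [Finsupp.mapDomain_add, map_add, hl, hm, mul_add, smul_add]
  | single σ c =>
    simp only [Finsupp.mapDomain_single, invComb, Finsupp.linearCombination_single,
      _root_.mul_inv_rev, map_mul, mul_smul_comm, smul_smul]
    congr 1
    ring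

theorem linearCombination_xMat (l : GQ →₀ ℤ_[p]) :
    Finsupp.linearCombination ℤ_[p] (xMat D) l = tateComb D l + invComb D l := by
  induction l using Finsupp.induction_linear with
  | zero => simp
  | add l m hl hm => rw [map_add, map_add, map_add, hl, hm]; abel
  | single σ c =>
    simp only [tateComb, invComb, Finsupp.linearCombination_single, xMat, smul_add]

/-- The values `ρ + ω ρ⁻¹` are central in the algebra generated by the image of `ρ`. -/
theorem commute_xMat (hd : FrobDense) (hS : S.Finite) (σ g : GQ) :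
    Commute (xMat D σ) (D.ρ g) := by
  refine matrix_ext_of_toZModPow fun n => ?_
  obtain ⟨t, ht⟩ := exists_hecke_approx D hd hS σ n
  have h : (PadicInt.toZModPow n).mapMatrix (xMat D σ) =
      (PadicInt.toZModPow n).mapMatrix (hecMat D t) := by
    rw [← sub_eq_zero, ← map_sub]
    refine Matrix.ext fun i j => ?_
    rw [RingHom.mapMatrix_apply, Matrix.map_apply, Matrix.zero_apply, ← RingHom.mem_ker,
      PadicInt.ker_toZModPow, Ideal.mem_span_singleton]
    exact ht i j
  rw [map_mul, map_mul, h, ← map_mul, ← map_mul, hecMat_apply, (D.comm g t).symm.eq]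

theorem commute_linearCombination_xMat (hd : FrobDense) (hS : S.Finite) (l : GQ →₀ ℤ_[p]) (g : GQ) :
    Commute (Finsupp.linearCombination ℤ_[p] (xMat D) l) (D.ρ g) := by
  rw [Finsupp.linearCombination_apply]
  exact Commute.sum_left _ _ _ fun σ _ => (commute_xMat D hd hS σ g).smul_left _

end Tate

variable {S : Finset ℕ} {T : Type} [CommRing T] [IsLocalRing T]
  [IsAdicComplete (IsLocalRing.maximalIdeal T) T]
  (hpT : (p : T) ∈ IsLocalRing.maximalIdeal T) (ρ : GaloisRepAdic T)

/-- The combination of an adic representation with `p`-adic coefficients. -/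
def adicComb : (GQ →₀ ℤ_[p]) →+ Module.End T ρ.V :=
  Finsupp.liftAddHom fun σ => (AddMonoidHom.mulRight (ρ.ρ σ)).comp
    ((algebraMap T (Module.End T ρ.V)).comp (padicToRing hpT)).toAddMonoidHom

theorem adicComb_single (σ : GQ) (c : ℤ_[p]) :
    adicComb hpT ρ (Finsupp.single σ c) = padicToRing hpT c • ρ.ρ σ := by
  rw [adicComb, Finsupp.liftAddHom_apply_single, Algebra.smul_def]
  rfl

theorem adicComb_mapDomain_left (g : GQ) (l : GQ →₀ ℤ_[p]) :
    adicComb hpT ρ (l.mapDomain (g * ·)) = ρ.ρ g * adicComb hpT ρ l := by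
  induction l using Finsupp.induction_linear with
  | zero => simp
  | add l m hl hm => simp only [Finsupp.mapDomain_add, map_add, hl, hm, mul_add]
  | single σ c => simp only [Finsupp.mapDomain_single, adicComb_single, map_mul, mul_smul_comm]

theorem adicComb_mapDomain_right (x : GQ) (l : GQ →₀ ℤ_[p]) :
    adicComb hpT ρ (l.mapDomain (· * x)) = adicComb hpT ρ l * ρ.ρ x := by
  induction l using Finsupp.induction_linear with
  | zero => simp
  | add l m hl hm => simp only [Finsupp.mapDomain_add, map_add, hl, hm, add_mul]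
  | single σ c => simp only [Finsupp.mapDomain_single, adicComb_single, map_mul, smul_mul_assoc]

theorem adicComb_eq_sum (l : GQ →₀ ℤ_[p]) :
    adicComb hpT ρ l = ∑ σ ∈ l.support, padicToRing hpT (l σ) • ρ.ρ σ := by
  conv_lhs => rw [← Finsupp.sum_single l, Finsupp.sum, map_sum]
  exact Finset.sum_congr rfl fun σ _ => adicComb_single hpT ρ σ _

end FermatAgent.GalRep.Flat

namespace FermatAgent.GalRep.Flat

open CuspForm Matrix IsLocalRing

local notation "GQ" => AlgebraicClosure ℚ ≃ₐ[ℚ] AlgebraicClosure ℚ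

variable {p : ℕ} [Fact p.Prime] {N : ℕ} [NeZero N] {S : Finset ℕ}
  {T : Type} [CommRing T] [IsLocalRing T] [IsNoetherianRing T]
  [IsAdicComplete (IsLocalRing.maximalIdeal T) T]
  (D : HeckeTateData N p (↑S : Set ℕ)) (hd : FrobDense)
  (hp : (p : T) ∈ IsLocalRing.maximalIdeal T) (H : PointDatum N (↑S : Set ℕ) T)

include hd hp in
omit [IsNoetherianRing T] in
/-- Relations between the values `ρ + ω ρ⁻¹` hold for the traces of the datum. -/
theorem trace_adicComb_eq_zero (l : GQ →₀ ℤ_[p])
    (hl : Finsupp.linearCombination ℤ_[p] (xMat D) l = 0) :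
    LinearMap.trace T H.ρ.V
      (adicComb hp H.ρ l) = 0 := by
  have hpT := hp
  refine eq_of_forall_sub_mem_pow fun n => ?_
  rw [sub_zero]
  obtain ⟨c₁, hc₁⟩ := exists_trace_datum_congr D hd hp H
  obtain ⟨c₂, hc₂⟩ := exists_dvd_of_dvd_image D.ι D.ι_injective p
  choose t ht using fun σ => exists_hecke_approx D hd S.finite_toSet σ (n + c₁ + c₂)
  let a : GQ → ℕ := fun σ => (l σ).appr (n + c₁ + c₂)
  have ha : ∀ σ, (p : ℤ_[p]) ^ (n + c₁ + c₂) ∣ l σ - (a σ : ℤ_[p]) := fun σ =>
    Ideal.mem_span_singleton.mp (PadicInt.appr_spec _ (l σ))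
  set u := ∑ σ ∈ l.support, (a σ : heckeAlgebra N 2 (↑S : Set ℕ)) * t σ
  have hu : ∀ i j, (p : ℤ_[p]) ^ (n + c₂) ∣ hecMat D u i j := fun i j => by
    have h : hecMat D u i j = ∑ σ ∈ l.support,
        (((a σ : ℤ_[p]) - l σ) * hecMat D (t σ) i j -
          l σ * (xMat D σ - hecMat D (t σ)) i j) := by
      have h0 : ∑ σ ∈ l.support, l σ * xMat D σ i j = 0 := by
        have := congrFun (congrFun hl i) j
        rw [Finsupp.linearCombination_apply, Finsupp.sum, Matrix.sum_apply] at this
        simpa using this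
      calc hecMat D u i j = ∑ σ ∈ l.support, (a σ : ℤ_[p]) * hecMat D (t σ) i j := by
            simp only [u, map_sum, map_mul, map_natCast, Matrix.sum_apply]
            exact Finset.sum_congr rfl fun σ _ => by
              rw [← nsmul_eq_mul, Matrix.smul_apply, nsmul_eq_mul]
        _ = ∑ σ ∈ l.support, ((a σ : ℤ_[p]) * hecMat D (t σ) i j - l σ * xMat D σ i j) := by
            rw [Finset.sum_sub_distrib, h0, sub_zero]
        _ = _ := Finset.sum_congr rfl fun σ _ => by rw [Matrix.sub_apply]; ring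
    rw [h]
    refine Finset.dvd_sum fun σ _ => dvd_sub ?_ ?_
    · exact ((pow_dvd_pow _ (by omega)).trans (dvd_sub_comm.mp (ha σ))).mul_right _
    · exact ((pow_dvd_pow _ (by omega)).trans (ht σ i j)).mul_left _
  obtain ⟨w, hw⟩ := hc₂ n u fun i j => by
    have h := hu i j
    rw [hecMat_apply, Matrix.map_apply] at h
    exact (PadicInt.pow_p_dvd_int_iff _ _).mp h
  have hπu : H.π u ∈ IsLocalRing.maximalIdeal T ^ n := by
    rw [hw, map_mul, map_pow, map_natCast]
    exact Ideal.mul_mem_right _ _ (Ideal.pow_mem_pow hpT n)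
  have hdiff : LinearMap.trace T H.ρ.V (adicComb hpT H.ρ l) - H.π u ∈
      IsLocalRing.maximalIdeal T ^ n := by
    simp only [u, adicComb_eq_sum, map_sum, map_smul, map_mul, map_natCast, smul_eq_mul,
      ← Finset.sum_sub_distrib]
    refine Ideal.sum_mem _ fun σ _ => ?_
    have h1 := hc₁ n σ (t σ) fun i j => (pow_dvd_pow _ (by omega)).trans (ht σ i j)
    have h2 : padicToRing hpT (l σ) - (a σ : T) ∈ IsLocalRing.maximalIdeal T ^ n := by
      rw [← map_natCast (padicToRing hpT), ← map_sub]
      exact padicToRing_mem_pow hpT ((pow_dvd_pow _ (by omega)).trans (ha σ))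
    have h3 := Ideal.add_mem _ (Ideal.mul_mem_left _ (padicToRing hpT (l σ)) h1)
      (Ideal.mul_mem_right (H.π (t σ)) _ h2)
    rw [GaloisRepAdic.trace] at h3
    convert h3 using 1
    ring
  have := Ideal.add_mem _ hdiff hπu
  rwa [sub_add_cancel] at this

include hd hp in
omit [IsNoetherianRing T] in
/-- Relations on the Tate module hold in the datum. -/
theorem adicComb_eq_zero (l : GQ →₀ ℤ_[p]) (hl : tateComb D l = 0) :
    adicComb hp H.ρ l = 0 := by
  have hpT := hp
  set R := adicComb hpT H.ρ l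
  set Y := invComb D l
  have hx : ∀ x, Finsupp.linearCombination ℤ_[p] (xMat D) (l.mapDomain (· * x)) =
      cycChar p x • (D.ρ x⁻¹ * Y) := fun x => by
    rw [linearCombination_xMat, tateComb_mapDomain_right, invComb_mapDomain_right, hl, zero_mul,
      zero_add]
  have hcomm : ∀ x g, Commute (D.ρ x⁻¹ * Y) (D.ρ g) := fun x g => by
    have hu : cycChar p x⁻¹ * cycChar p x = 1 := by rw [← map_mul, inv_mul_cancel, map_one]
    have h := (commute_linearCombination_xMat D hd S.finite_toSet (l.mapDomain (· * x)) g).smul_left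
      (cycChar p x⁻¹)
    rwa [hx, smul_smul, hu, one_smul] at h
  have hcentral : ∀ a b c : GQ, D.ρ (a * b * c)⁻¹ * Y = D.ρ (a * c * b)⁻¹ * Y := fun a b c => by
    have hY : ∀ g, Y * D.ρ g = D.ρ g * Y := fun g => by
      simpa using (hcomm 1 g).eq
    simp only [_root_.mul_inv_rev, map_mul]
    calc D.ρ c⁻¹ * (D.ρ b⁻¹ * D.ρ a⁻¹) * Y
        = (D.ρ c⁻¹ * Y) * D.ρ b⁻¹ * D.ρ a⁻¹ := by
          simp only [mul_assoc]
          rw [← mul_assoc Y, hY, mul_assoc, hY]
      _ = D.ρ b⁻¹ * (D.ρ c⁻¹ * Y) * D.ρ a⁻¹ := by rw [(hcomm c b⁻¹).eq]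
      _ = D.ρ b⁻¹ * (D.ρ c⁻¹ * D.ρ a⁻¹) * Y := by
          simp only [mul_assoc]
          rw [hY]
  have htr : ∀ a b c : GQ,
      LinearMap.trace T H.ρ.V (R * H.ρ.ρ a * (H.ρ.ρ b * H.ρ.ρ c - H.ρ.ρ c * H.ρ.ρ b)) = 0 := by
    intro a b c
    have hω : cycChar p (a * b * c) = cycChar p (a * c * b) := by
      simp only [map_mul]; ring
    have h : Finsupp.linearCombination ℤ_[p] (xMat D)
        (l.mapDomain (· * (a * b * c)) - l.mapDomain (· * (a * c * b))) = 0 := by
      rw [map_sub, hx, hx, hω, hcentral, sub_self]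
    have h2 := trace_adicComb_eq_zero D hd hp H _ h
    rw [map_sub, adicComb_mapDomain_right, adicComb_mapDomain_right, map_mul, map_mul, map_mul,
      map_mul] at h2
    rw [← h2]
    congr 1
    simp only [mul_sub, mul_assoc]
    rfl
  have hspan : ∀ x : Module.End T H.ρ.V, x ∈ Submodule.span T (Set.range H.ρ.ρ) := fun x =>
    adic_span_range_eq_top H.ρ H.residual_absIrr ▸ Submodule.mem_top
  have hall : ∀ A B C : Module.End T H.ρ.V,
      LinearMap.trace T H.ρ.V (R * A * (B * C - C * B)) = 0 := by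
    intro A B C
    induction hspan A using Submodule.span_induction with
    | mem A hA =>
      obtain ⟨a, rfl⟩ := hA
      induction hspan B using Submodule.span_induction with
      | mem B hB =>
        obtain ⟨b, rfl⟩ := hB
        induction hspan C using Submodule.span_induction with
        | mem C hC => obtain ⟨c, rfl⟩ := hC; exact htr a b c
        | zero => simp
        | add u v _ _ hu hv => rw [mul_add, add_mul, add_sub_add_comm, mul_add, map_add, hu, hv,
            add_zero]
        | smul r u _ hu =>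
          rw [mul_smul_comm, smul_mul_assoc, ← smul_sub, mul_smul_comm, map_smul, hu, smul_zero]
      | zero => simp
      | add u v _ _ hu hv => rw [mul_add, add_mul, add_sub_add_comm, mul_add, map_add, hu, hv,
          add_zero]
      | smul r u _ hu =>
        rw [mul_smul_comm, smul_mul_assoc, ← smul_sub, mul_smul_comm, map_smul, hu, smul_zero]
    | zero => simp
    | add u v _ _ hu hv => rw [mul_add, add_mul, map_add, hu, hv, add_zero]
    | smul r u _ hu => rw [mul_smul_comm, smul_mul_assoc, map_smul, hu, smul_zero]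
  refine eq_zero_of_trace_mul_eq_zero H.ρ H.residual_absIrr R fun σ => ?_
  let b := Module.finBasisOfFinrankEq T H.ρ.V H.ρ.finrank_eq
  let Φ := (LinearMap.toMatrixAlgEquiv b).symm
  let E : Fin 2 → Fin 2 → Module.End T H.ρ.V := fun i j => Φ (Matrix.single i j 1)
  have hdecomp : H.ρ.ρ σ = (H.ρ.ρ σ * E 0 1) * (E 1 1 * E 1 0 - E 1 0 * E 1 1) +
      (H.ρ.ρ σ * E 1 0) * (E 0 0 * E 0 1 - E 0 1 * E 0 0) := by
    obtain ⟨M, hM⟩ := Φ.surjective (H.ρ.ρ σ)
    rw [← hM]
    simp only [E, ← map_mul, ← map_sub, ← map_add]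
    congr 1
    ext i j
    fin_cases i <;> fin_cases j <;>
      simp [Matrix.mul_apply, Matrix.sub_apply, Fin.sum_univ_two, Matrix.single]
  rw [hdecomp, mul_add, map_add, ← mul_assoc R (H.ρ.ρ σ * E 0 1),
    ← mul_assoc R (H.ρ.ρ σ * E 1 0), hall, hall, add_zero]

end FermatAgent.GalRep.Flat
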